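/-
S22 (milestone row 21): `result` proves the frozen statement
`CuspForm.moduleFinite_heckeAlgebra`.

Row: For every level N, weight k and set of primes S, the Hecke algebra of cusp forms (generated
away from S) is a finitely generated ℤ-module.
-/
import Fermat.Statements.S22
import Fermat.Agent.MFCore.Integral
import Mathlib.NumberTheory.ModularForms.CuspFormSubmodule
import Mathlib.NumberTheory.ModularForms.NormTrace
import Fermat.Prelude.Thm_CuspForm_intLattice_fg
import Fermat.Prelude.Thm_CuspForm_mem_intLattice_of_mem_heckeAlgebra

set_option autoImplicit false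
open CuspForm

namespace Fermat.Agent.S22

theorem cuspForm_eq_zero_of_weight_le_zero {N : ℕ} [NeZero N] {k : ℤ} (hk : k ≤ 0)
    (f : CuspForm (CongruenceSubgroup.Gamma0 N) k) : f = 0 := by
  set g : ModularForm (CongruenceSubgroup.Gamma0 N) k :=
    CuspForm.toModularFormₗ f with hg
  have hfg : (f : UpperHalfPlane → ℂ) = g := rfl
  rcases hk.lt_or_eq with h | h
  · apply DFunLike.coe_injective
    rw [hfg, ModularForm.isZero_of_neg_weight h g]
    rfl
  · subst h
    obtain ⟨c, hc⟩ := ModularForm.eq_const_of_weight_zero g
    have hz : UpperHalfPlane.IsZeroAtImInfty f := CuspFormClass.zero_at_infty f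
    have hz' : Filter.Tendsto (fun _ : UpperHalfPlane => c) UpperHalfPlane.atImInfty (nhds 0) := by
      have : (f : UpperHalfPlane → ℂ) = fun _ => c := hfg.trans hc
      exact this ▸ hz
    have hc0 : c = 0 := tendsto_nhds_unique tendsto_const_nhds hz'
    apply DFunLike.coe_injective
    rw [hfg, hc, hc0]
    rfl

theorem result (N : ℕ) [NeZero N] (k : ℤ) (S : Set ℕ) :
    Module.Finite ℤ (CuspForm.heckeAlgebra N k S) := by
  rcases le_or_gt k 0 with hk | hk
  · have : Subsingleton (CuspForm (CongruenceSubgroup.Gamma0 N) k) :=
      ⟨fun a b => by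
        rw [cuspForm_eq_zero_of_weight_le_zero hk a, cuspForm_eq_zero_of_weight_le_zero hk b]⟩
    have : Subsingleton (CuspForm.heckeAlgebra N k S) :=
      ⟨fun a b => Subtype.ext (LinearMap.ext fun f => Subsingleton.elim _ _)⟩
    exact Module.Finite.of_finite
  · have : Module.Finite ℤ (CuspForm.intLattice N k) :=
      Module.Finite.iff_fg.mpr (CuspForm.intLattice_fg N k)
    obtain ⟨g, hg⟩ := CuspForm.intLattice_fg N k
    let φ : CuspForm.heckeAlgebra N k S →ₗ[ℤ] (g → CuspForm.intLattice N k) :=
      { toFun := fun t f => ⟨t.1 f.1, CuspForm.mem_intLattice_of_mem_heckeAlgebra (by omega) t.2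
          (hg ▸ Submodule.subset_span f.2)⟩
        map_add' := fun a b => rfl
        map_smul' := fun c a => rfl }
    have hinj : Function.Injective φ := by
      intro a b h
      apply Subtype.ext
      refine LinearMap.ext_on (Fermat.Agent.MFCore.hasIntegralStructure N k) fun f hf => ?_
      rw [SetLike.mem_coe, ← hg] at hf
      induction hf using Submodule.span_induction with
      | mem x hx => exact congrArg Subtype.val (congrFun h ⟨x, hx⟩)
      | zero => simp
      | add x y _ _ hx hy => simp [map_add, hx, hy]
      | smul c x _ hx => simp [map_zsmul, hx]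
    exact Module.Finite.of_injective φ hinj

end Fermat.Agent.S22
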