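/-
S11 (milestone row 10): `result` proves the frozen statement
`FreyPackage.frey_no_cofixed_eleven`.

Row: The mod-p representation of the Frey curve has no Galois-stable cofixed line when p = 11.
-/
import Fermat.Statements.S11
import Fermat.Agent.EC.Eleven.Stable
import Fermat.Agent.EC.Reducible.FreyModel

set_option autoImplicit false
open WeierstrassCurve WeierstrassCurve.Affine WeierstrassCurve.Affine.Point
open CuspForm ModularFormClass UpperHalfPlane
open FreyPackage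

namespace Fermat.Agent.S11

lemma frey_c₄_odd (P : FreyPackage) : ¬ (2 : ℤ) ∣ P.freyCurveInt.c₄ := by
  rw [Fermat.Agent.EC.Reducible.freyCurveInt_c₄]
  have hb : (2 : ℤ) ∣ P.b := (ZMod.intCast_zmod_eq_zero_iff_dvd P.b 2).mp P.hb2
  have ha : ¬ (2 : ℤ) ∣ P.a := fun h => by
    have h' : (2 : ℤ) ∣ gcd P.a P.b := dvd_gcd h hb
    rw [P.hgcdab] at h'
    norm_num at h'
  intro h
  have hb' : (2 : ℤ) ∣ P.b ^ P.p := dvd_pow hb P.hp0
  have h2 : (2 : ℤ) ∣ (P.a ^ P.p) ^ 2 := by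
    have : (P.a ^ P.p) ^ 2 = (P.a ^ P.p) ^ 2 + P.a ^ P.p * P.b ^ P.p + (P.b ^ P.p) ^ 2
        - P.b ^ P.p * (P.a ^ P.p + P.b ^ P.p) := by ring
    rw [this]
    exact dvd_sub h (dvd_mul_of_dvd_left hb' _)
  exact ha (Int.prime_two.dvd_of_dvd_pow (Int.prime_two.dvd_of_dvd_pow h2))

theorem result (P : FreyPackage) (hp : P.p = 11) : ¬ HasGaloisStableCofixedLine (K := AlgebraicClosure ℚ) ℚ P.freyCurve P.p := by
  rw [hp]
  rintro ⟨N, hstab, hbot, htop, -⟩
  have hΔ0 := Fermat.Agent.EC.Reducible.freyCurveInt_Δ_ne_zero P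
  have hell : P.freyCurve.IsElliptic := by
    refine ⟨?_⟩
    rw [Fermat.Agent.EC.Reducible.freyCurve_eq_map, map_Δ, isUnit_iff_ne_zero, eq_intCast]
    exact_mod_cast hΔ0
  obtain ⟨x, y, h, C, htw, hx0, hx1, hC⟩ :=
    Fermat.Agent.Eleven.exists_twisted_of_stable_line P.freyCurve N hstab hbot htop
  obtain ⟨A, hA⟩ :=
    Fermat.Agent.Gal.exists_liesOverPrime (L := AlgebraicClosure ℚ) Nat.prime_two
  obtain ⟨hc4, hΔ⟩ := Fermat.Agent.Eleven.tate_val_two hA htw rfl hx0 hx1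
  rw [← hC, variableChange_c₄] at hc4
  rw [← hC, variableChange_Δ] at hΔ
  have ec4 : (P.freyCurve.baseChange (AlgebraicClosure ℚ)).c₄
      = ((P.freyCurveInt.c₄ : ℤ) : AlgebraicClosure ℚ) := by
    rw [Fermat.Agent.EC.Reducible.freyCurve_eq_map, WeierstrassCurve.baseChange, map_c₄, map_c₄,
      eq_intCast, map_intCast]
  have eΔ : (P.freyCurve.baseChange (AlgebraicClosure ℚ)).Δ
      = ((P.freyCurveInt.Δ : ℤ) : AlgebraicClosure ℚ) := by
    rw [Fermat.Agent.EC.Reducible.freyCurve_eq_map, WeierstrassCurve.baseChange, map_Δ, map_Δ,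
      eq_intCast, map_intCast]
  rw [ec4, map_mul, map_pow, Fermat.Agent.Eleven.val_intCast_eq Nat.prime_two hA
    (n := P.freyCurveInt.c₄) (by exact_mod_cast frey_c₄_odd P), mul_one] at hc4
  rw [eΔ] at hΔ
  rcases hΔ with hΔ | hΔ
  · exact hΔ0 (Int.cast_eq_zero.mp
      ((mul_eq_zero.mp hΔ).resolve_left (pow_ne_zero _ (Units.ne_zero _))))
  · have hlt := Fermat.Agent.Eleven.val_intCast_lt (A := A) (L := AlgebraicClosure ℚ)
      Nat.prime_two hA (n := P.freyCurveInt.Δ)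
      (by exact_mod_cast Fermat.Agent.EC.Reducible.two_dvd_freyCurveInt_Δ P)
    rw [map_mul, map_pow, show (12 : ℕ) = 4 * 3 from rfl, pow_mul] at hΔ
    exact ((mul_le_of_le_one_left' (pow_le_one' hc4 3)).trans_lt hlt).ne hΔ

end Fermat.Agent.S11
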