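/-
S13 (milestone row 12): `result` proves the frozen statement
`FreyPackage.frey_reducible_hasCofixedLine`.

Row: If the mod-p representation of the Frey curve is reducible, it has a Galois-stable cofixed
line.
-/
import Fermat.Statements.S13
import Fermat.Agent.EC.Reducible.FreyCofixed

set_option autoImplicit false
open WeierstrassCurve WeierstrassCurve.Affine WeierstrassCurve.Affine.Point
open CuspForm ModularFormClass UpperHalfPlane
open FreyPackage

namespace Fermat.Agent.S13

theorem result (P : FreyPackage) (hred : ¬ GaloisRepIsIrreducible (K := AlgebraicClosure ℚ) ℚ P.freyCurve P.p) : HasGaloisStableCofixedLine (K := AlgebraicClosure ℚ) ℚ P.freyCurve P.p := by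
  exact Fermat.Agent.EC.Reducible.frey_cofixed P hred

end Fermat.Agent.S13
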