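/-
S14 (milestone row 13): `result` proves the frozen statement
`ExtCitation.extVanishingCts_of_three_le`.

Row: The Ext-vanishing property ExtVanishingCts p (no admissible extension of ℤ/p by μ_p over Spec
ℤ, as defined in the prelude) holds for every prime p ≥ 3.
-/
import Fermat.Statements.S14
import Fermat.Agent.ExtVanish.Main

set_option autoImplicit false
open ExtCitation

namespace Fermat.Agent.S14

theorem result {p : ℕ} [Fact p.Prime] (h3 : 3 ≤ p) :
    ExtCitation.ExtVanishingCts p := by
  exact Fermat.Agent.ExtVanish.extVanishingCts_of_le h3

end Fermat.Agent.S14
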