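/-
S20 (milestone row 19): `result` proves the frozen statement
`CuspForm.finrank_gamma0_weight_two_eq_genusFormula`.

Row: dim S₂(Γ₀(N)) equals the classical genus formula for X₀(N).
-/
import Fermat.Statements.S20
import Fermat.Agent.Dimension.Count
import Fermat.Agent.Dimension.Separation
import Fermat.Agent.Cosets.Count

set_option autoImplicit false
open CuspForm

namespace Fermat.Agent.S20

theorem result (N : ℕ) [NeZero N] :
    (Module.finrank ℂ (CuspForm (CongruenceSubgroup.Gamma0 N) 2) : ℚ) = ModularCurve.genusFormula N := by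
  have : Fintype (Fermat.Agent.Dimension.Coset (CongruenceSubgroup.Gamma0 N)) := Fintype.ofFinite _
  have h := Fermat.Agent.Dimension.twelve_mul_finrank_cuspForm
    (Γ := CongruenceSubgroup.Gamma0 N) (by simp [CongruenceSubgroup.Gamma0_mem])
    (Fermat.Agent.Dimension.separates_Gamma0 N)
  have h1 := Fermat.Agent.Cosets.card_coset N
  have h2 := Fermat.Agent.Cosets.card_fixed_S N
  have h3 := Fermat.Agent.Cosets.card_fixed_ST N
  have h4 : Nat.card (Fermat.Agent.Dimension.Cusps (CongruenceSubgroup.Gamma0 N)) =
      ModularCurve.cuspCount N := by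
    rw [← Fermat.Agent.Cosets.card_T_orbits N]
    unfold Fermat.Agent.Dimension.Cusps Fermat.Agent.Cosets.CuspOrbit
    rw [Subgroup.zpowers_inv]
  rw [h1, h2, h3, h4] at h
  rw [ModularCurve.genusFormula]
  apply (Rat.cast_injective (α := ℂ))
  push_cast
  linear_combination h / 12

end Fermat.Agent.S20
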