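/-
S21 (milestone row 20): `result` proves the frozen statement
`ModularCurve.periodHomPair_eichlerShimura`.

Row: Eichler–Shimura: the period map of level N is injective and its image is exactly the space of
parabolic cohomology classes of Γ₀(N).
-/
import Fermat.Statements.S21
import Fermat.Agent.S20
import Fermat.Agent.Periods.EichlerShimura

set_option autoImplicit false
open ModularCurve

namespace Fermat.Agent.S21

theorem result (N : ℕ) [NeZero N] :
    Function.Injective (ModularCurve.periodHomPair N)
      ∧ LinearMap.range (ModularCurve.periodHomPair N)
          = ModularCurve.Period.parabolicHoms ℂ (CongruenceSubgroup.Gamma0 N) ℂ := by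
  exact ⟨Fermat.Agent.Periods.periodHomPair_injective N,
    Fermat.Agent.Periods.range_periodHomPair_of_genus_le N (le_of_eq (Fermat.Agent.S20.result N).symm)⟩

end Fermat.Agent.S21
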