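/-
S05 (milestone row 5): `result` proves the frozen statement
`FreyPackage.freyGaloisRep_isUnramifiedAt`.

Row: The mod-p Galois representation of the Frey curve is unramified at every prime q with q ≠ 2
and q ≠ p.
-/
import Fermat.Statements.S05
import Fermat.Agent.Multiplicative.Semistable
import Fermat.Agent.EC.Reducible.FreyModel

/-!
S05: the mod `p` representation of the Frey curve is unramified away from `2p`.
-/

set_option autoImplicit false
open WeierstrassCurve WeierstrassCurve.Affine WeierstrassCurve.Affine.Point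
open CuspForm ModularFormClass UpperHalfPlane
open FreyPackage

namespace Fermat.Agent.S05

open Fermat.Agent.EC.Reducible in
theorem dvd_padicValInt_Δ (P : FreyPackage) {q : ℕ} (hq : q.Prime) (hq2 : q ≠ 2) :
    P.p ∣ padicValInt q P.freyCurveInt.Δ := by
  have : Fact q.Prime := ⟨hq⟩
  have h := congrArg (fun z : ℤ => padicValNat q z.natAbs) (freyCurveInt_Δ P)
  simp only [Int.natAbs_mul, Int.natAbs_pow] at h
  rw [padicValNat.mul (Int.natAbs_ne_zero.2 (freyCurveInt_Δ_ne_zero P)) (by norm_num),
    padicValNat.pow, padicValNat.pow] at h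
  have h2 : padicValNat q (Int.natAbs 2) = 0 :=
    padicValNat.eq_zero_of_not_dvd (fun hd => hq2 ((Nat.prime_dvd_prime_iff_eq hq Nat.prime_two).1 hd))
  rw [h2, mul_zero, add_zero] at h
  exact ⟨2 * padicValNat q (P.a.natAbs * P.b.natAbs * P.c.natAbs), h.trans (by ring)⟩

theorem result (P : FreyPackage) {q : ℕ} (hq : q.Prime) (hq2 : q ≠ 2) (hqp : q ≠ P.p) : P.GaloisRepUnramifiedAt q := by
  have hp2 : P.p ≠ 2 := by have := P.hp5; omega
  unfold FreyPackage.GaloisRepUnramifiedAt
  rw [Fermat.Agent.EC.Reducible.freyCurve_eq_map P]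
  exact Fermat.Agent.Multiplicative.galoisRepUnramifiedAt_of_dvd
    (Fermat.Agent.EC.Reducible.freyCurveInt_isSemistableModel P)
    (Fermat.Agent.EC.Reducible.freyCurveInt_Δ_ne_zero P) P.pp hp2 hq hqp (dvd_padicValInt_Δ P hq hq2)

end Fermat.Agent.S05
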