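/-
S49 (milestone row 44): `result` proves the frozen statement
`FLT.AbstractIntegralStructure.exists_weight_two_eigenform_congruent_of_isLatticeRealized`.

Row: Lifting lemma: a formal Hecke eigensystem with character χ₋₃ that is lattice-realised in the
weight-2 forms of level N (N with an integral basis) is congruent modulo a prime over 3 to a
genuine normalised weight-2 eigenform on Γ₀(N).
-/
import Fermat.Statements.S49
import Fermat.Agent.Hecke.Lifting

set_option autoImplicit false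
open CuspForm EisensteinWeightOne CongruenceSubgroup ModularFormClass
open FLT FLT.AbstractIntegralStructure

namespace Fermat.Agent.S49

open Fermat.Agent.Hecke in
theorem hasIntegralStructure_of_hasIntegralBasis {N : ℕ} (h : CuspForm.HasIntegralBasis N) :
    CuspForm.HasIntegralStructure N 2 := by
  refine top_le_iff.1 (h.symm.le.trans (Submodule.span_mono fun f hf => ?_))
  refine (mem_intLattice_iff f).2 fun n => ?_
  obtain ⟨m, hm⟩ := Subring.mem_bot.1 (hf n)
  exact ⟨m, hm.symm⟩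

theorem cast_chiNegThree (ℓ : ℕ) : ((chiNegThree ℓ : ℤ) : ZMod 3) = (ℓ : ZMod 3) := by
  rw [← ZMod.natCast_mod ℓ 3, chiNegThree]
  have : ℓ % 3 < 3 := Nat.mod_lt _ (by norm_num)
  interval_cases ℓ % 3 <;> decide

theorem cast_bridgeProduct (a : ℕ → ℤ) (n : ℕ) :
    (((bridgeProduct a).coeff n : ℤ) : ZMod 3) = a n := by
  have he : PowerSeries.map (Int.castRingHom (ZMod 3)) (e1Chi3In ℤ) = 1 := by
    ext i
    rw [e1Chi3In, PowerSeries.coeff_map, PowerSeries.coeff_map, e1Chi3, PowerSeries.coeff_mk,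
      PowerSeries.coeff_one]
    rcases eq_or_ne i 0 with rfl | hi
    · simp
    · simp [hi, show (6 : ZMod 3) = 0 from by decide]
  have h : PowerSeries.coeff n (PowerSeries.map (Int.castRingHom (ZMod 3)) (bridgeProduct a)) =
      (a n : ZMod 3) := by
    rw [bridgeProduct, map_mul, he, mul_one, PowerSeries.coeff_map, PowerSeries.coeff_mk]
    rfl
  rw [PowerSeries.coeff_map] at h
  exact h

open Fermat.Agent.Hecke in
theorem result
    {N : ℕ} [NeZero N] (h : CuspForm.HasIntegralBasis N) {a : ℕ → ℤ}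
    (heig : FormalHecke.IsEigensystem
      (fun ℓ => if ℓ ∣ N then 0 else ((chiNegThree ℓ : ℤ) : ℤ)) a)
    (hreal : CuspForm.IsLatticeRealized N a) :
    ∃ (f : CuspForm (Gamma0 N) 2) (_ : f.IsNormalizedEigenform)
      (𝔪' : Ideal (integralClosure ℤ ℂ)), 𝔪'.IsMaximal ∧
      ((3 : ℕ) : integralClosure ℤ ℂ) ∈ 𝔪' ∧
      ∀ (ℓ : ℕ) (_ : ℓ.Prime) (_ : ¬ ℓ ∣ N),
        ∃ c : integralClosure ℤ ℂ, (c : ℂ) = ModularFormClass.qCoeff f ℓ ∧
          c - (a ℓ : integralClosure ℤ ℂ) ∈ 𝔪' := by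
  obtain ⟨F, hFset, af, haf, hdvd⟩ := hreal
  have hint := hasIntegralStructure_of_hasIntegralBasis h
  have hFL : F ∈ CuspForm.intLattice N 2 := (mem_intLattice_iff F).2 fun n => ⟨af n, (haf n).symm⟩
  have hmod : ∀ n, (af n : ZMod 3) = a n := fun n => by
    rw [← cast_bridgeProduct a n]
    have := (ZMod.intCast_zmod_eq_zero_iff_dvd _ 3).2 (hdvd n)
    rwa [Int.cast_sub, sub_eq_zero] at this
  have hkey : ∀ p : ℕ, p.Prime → ∀ n : ℕ,
      (af (n * p) : ZMod 3) + (if p ∣ N then 0 else (p : ZMod 3)) *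
        (if p ∣ n then (af (n / p) : ZMod 3) else 0) = (a p : ZMod 3) * af n := by
    intro p hp n
    have e := congrArg (Int.cast : ℤ → ZMod 3) (heig.2 p hp n)
    push_cast at e
    simp only [hmod, mul_comm n p]
    refine Eq.trans ?_ e
    congr 1
    congr 1
    · split_ifs
      · simp
      · exact (cast_chiNegThree p).symm
  have hdiv : ∀ x y : ℤ, (x : ZMod 3) = y → ∃ v : ℤ, (x : ℂ) = y + ((3 : ℕ) : ℂ) * v := by
    intro x y hxy
    obtain ⟨v, hv⟩ := (ZMod.intCast_zmod_eq_zero_iff_dvd (x - y) 3).1 (by rw [Int.cast_sub, hxy, sub_self])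
    refine ⟨v, ?_⟩
    rw [eq_add_of_sub_eq' hv]
    push_cast
    ring
  have h1 : ∃ v : ℤ, qCoeff ⇑F 1 = 1 + ((3 : ℕ) : ℂ) * v := by
    obtain ⟨v, hv⟩ := hdiv (af 1) 1 (by rw [hmod, heig.1])
    exact ⟨v, by rw [← haf, hv, Int.cast_one]⟩
  have hgen : ∀ t ∈ CuspForm.heckeGenerators N 2 (∅ : Set ℕ), ∃ c : ℤ, ∀ n, ∃ v : ℤ,
      qCoeff ⇑(t F) n = c * qCoeff ⇑F n + ((3 : ℕ) : ℂ) * v := by
    rintro t (⟨p, hp, hpN, -, rfl⟩ | ⟨p, hpN, hp, -, rfl⟩) <;> refine ⟨a p, fun n => ?_⟩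
    · obtain ⟨v, hv⟩ := hdiv (af (n * p) + if p ∣ n then (p : ℤ) * af (n / p) else 0)
        (a p * af n) (by
          have e := hkey p hp n
          rw [if_neg hpN] at e
          push_cast
          rw [← e]
          split_ifs <;> simp)
      refine ⟨v, ?_⟩
      rw [qCoeff_heckeTLin_two, ← haf n]
      push_cast at hv ⊢
      rw [← hv, haf]
      congr 1
      split_ifs <;> simp [haf]
    · obtain ⟨v, hv⟩ := hdiv (af (n * p)) (a p * af n) (by
          have e := hkey p hp n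
          rw [if_pos hpN, zero_mul, add_zero] at e
          rw [Int.cast_mul, e])
      refine ⟨v, ?_⟩
      rw [qCoeff_heckeULin, ← haf n, ← haf (n * p), hv, Int.cast_mul]
  obtain ⟨θ, hθ⟩ := exists_residual_character 3 F hFL h1 hgen
  have : Fact (Nat.Prime 3) := ⟨Nat.prime_three⟩
  have : (RingHom.ker θ).IsMaximal :=
    RingHom.ker_isMaximal_of_surjective θ (fun z => ⟨(z.val : heckeAlgebra N 2 ∅), by
      rw [map_natCast, ZMod.natCast_zmod_val]⟩)
  obtain ⟨g, hg, 𝔪, h𝔪, hiff⟩ := exists_eigenform_lift hint (RingHom.ker θ)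
  refine ⟨g, hg, 𝔪, h𝔪, ?_, fun ℓ hℓ hℓN => ?_⟩
  · obtain ⟨c, hc, hc'⟩ := hiff ((3 : ℕ) : heckeAlgebra N 2 ∅)
    have : c = ((3 : ℕ) : integralClosure ℤ ℂ) := Subtype.ext (by rw [hc, map_natCast]; rfl)
    rw [← this, hc', RingHom.mem_ker, map_natCast, ZMod.natCast_self]
  · set T := heckeAlgebra.T (N := N) (k := 2) (S := ∅) hℓ hℓN (Set.notMem_empty ℓ) with hT
    obtain ⟨c, hc, hc'⟩ := hiff (T - (a ℓ : heckeAlgebra N 2 ∅))
    refine ⟨c + (a ℓ : integralClosure ℤ ℂ), ?_, ?_⟩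
    · push_cast
      rw [hc, map_sub, map_intCast, hT, eigenCharacter_T hg hℓ hℓN]
      simp
    · rw [add_sub_cancel_right, hc', RingHom.mem_ker, map_sub, map_intCast, sub_eq_zero]
      have ha1 : (af 1 : ZMod 3) = 1 := by rw [hmod, heig.1, Int.cast_one]
      have e := hkey ℓ hℓ 1
      rw [if_neg (fun hd : ℓ ∣ 1 => hℓ.ne_one (Nat.dvd_one.1 hd)), mul_zero, add_zero, ha1,
        mul_one, one_mul] at e
      have h' := hθ T 1 (af ℓ) (af 1) (by
        rw [hT, heckeAlgebra.coe_T, qCoeff_heckeTLin_two,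
          if_neg (fun hd : ℓ ∣ 1 => hℓ.ne_one (Nat.dvd_one.1 hd)), add_zero, one_mul, haf]) (haf 1).symm
      rw [ha1, mul_one] at h'
      rw [← h', e]

end Fermat.Agent.S49
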