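/-
S02 (milestone row 2): `result` proves the frozen statement
`FreyPackage.of_counterexample`.

Row: A solution of aᵖ + bᵖ = cᵖ in nonzero integers for a prime p ≥ 5 yields a Frey package.
-/
import Fermat.Statements.S02
import Mathlib

set_option autoImplicit false
open FreyPackage

namespace Fermat.Agent.S02

theorem of_coprime_of_even (a b c : ℤ) (ha : a ≠ 0) (hb : b ≠ 0) (hc : c ≠ 0) (p : ℕ) (pp : p.Prime)
    (hp5 : 5 ≤ p) (H : a ^ p + b ^ p = c ^ p) (hg : gcd a b = 1) (hb2 : 2 ∣ b) :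
    Nonempty FreyPackage := by
  have hb' : (b : ZMod 2) = 0 := (ZMod.intCast_zmod_eq_zero_iff_dvd b 2).2 hb2
  have hodd : Odd p := pp.odd_of_ne_two (by omega)
  have ha2 : ¬ (2 ∣ a) := fun h => by
    have h1 : (2 : ℤ) ∣ gcd a b := dvd_gcd h hb2
    rw [hg] at h1
    norm_num at h1
  rcases (show a % 4 = 3 ∨ a % 4 = 1 by omega) with h4 | h4
  · have ha4 : (a : ZMod 4) = 3 := by
      rw [show a = 3 + 4 * (a / 4) by omega]
      push_cast
      rw [show (4 : ZMod 4) = 0 from rfl, zero_mul, add_zero]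
    exact ⟨⟨a, b, c, ha, hb, hc, p, pp, hp5, H, hg, ha4, hb'⟩⟩
  · have ha4 : ((-a : ℤ) : ZMod 4) = 3 := by
      rw [show -a = 3 + 4 * (-(a / 4) - 1) by omega]
      push_cast
      rw [show (4 : ZMod 4) = 0 from rfl, zero_mul, add_zero]
    refine ⟨⟨-a, -b, -c, neg_ne_zero.2 ha, neg_ne_zero.2 hb, neg_ne_zero.2 hc, p, pp, hp5, ?_, ?_,
      ha4, ?_⟩⟩
    · rw [hodd.neg_pow, hodd.neg_pow, hodd.neg_pow, ← H]
      ring
    · rw [← Int.coe_gcd, Int.neg_gcd, Int.gcd_neg, Int.coe_gcd]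
      exact hg
    · push_cast
      rw [hb', neg_zero]

theorem result (a b c : ℤ) (ha : a ≠ 0) (hb : b ≠ 0) (hc : c ≠ 0) (p : ℕ) (pp : p.Prime) (hp5 : 5 ≤ p) (H : a ^ p + b ^ p = c ^ p) : Nonempty FreyPackage := by
  have hp0 : 0 < p := pp.pos
  obtain ⟨a', ha'⟩ : gcd a b ∣ a := gcd_dvd_left a b
  obtain ⟨b', hb'⟩ : gcd a b ∣ b := gcd_dvd_right a b
  have hg0 : gcd a b ≠ 0 := fun h => ha (by rw [ha', h, zero_mul])
  have hgu : gcd a' b' = 1 := by
    have h1 : gcd a b = gcd a b * gcd a' b' := by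
      have hnorm : normalize (gcd a b) = gcd a b := normalize_gcd a b
      generalize hG : gcd a b = g at ha' hb' hnorm ⊢
      have h2 : gcd a b = gcd (g * a') (g * b') := by rw [← ha', ← hb']
      rw [hG, gcd_mul_left, hnorm] at h2
      exact h2
    exact mul_left_cancel₀ hg0 (by rw [mul_one]; exact h1.symm)
  obtain ⟨c', hc'⟩ : gcd a b ∣ c := by
    rw [← Int.pow_dvd_pow_iff hp0.ne', ← H]
    exact dvd_add (pow_dvd_pow_of_dvd (gcd_dvd_left a b) p)
      (pow_dvd_pow_of_dvd (gcd_dvd_right a b) p)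
  have ha0 : a' ≠ 0 := fun h => ha (by rw [ha', h, mul_zero])
  have hb0 : b' ≠ 0 := fun h => hb (by rw [hb', h, mul_zero])
  have hc0 : c' ≠ 0 := fun h => hc (by rw [hc', h, mul_zero])
  have H' : a' ^ p + b' ^ p = c' ^ p := by
    generalize gcd a b = g at *
    subst ha' hb' hc'
    apply mul_left_cancel₀ (pow_ne_zero p hg0)
    rw [mul_add, ← mul_pow, ← mul_pow, ← mul_pow]
    exact H
  by_cases hb2 : 2 ∣ b'
  · exact of_coprime_of_even a' b' c' ha0 hb0 hc0 p pp hp5 H' hgu hb2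
  by_cases ha2 : 2 ∣ a'
  · exact of_coprime_of_even b' a' c' hb0 ha0 hc0 p pp hp5 (by rw [add_comm]; exact H')
      (by rw [gcd_comm]; exact hgu) ha2
  have hc2 : 2 ∣ c' := by
    have h1 : Even (c' ^ p) := by
      rw [← H', Int.even_add]
      simp only [Int.even_pow' hp0.ne', even_iff_two_dvd, ha2, hb2]
    rw [Int.even_pow' hp0.ne', even_iff_two_dvd] at h1
    exact h1
  have hodd : Odd p := pp.odd_of_ne_two (by omega)
  refine of_coprime_of_even a' (-c') (-b') ha0 (neg_ne_zero.2 hc0) (neg_ne_zero.2 hb0) p pp hp5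
    ?_ ?_ (dvd_neg.2 hc2)
  · rw [hodd.neg_pow, hodd.neg_pow, ← H']
    ring
  · rw [← Int.coe_gcd, Int.gcd_neg, Int.coe_gcd, ← FreyPackage.gcdab_eq_gcdac hp0 H', hgu]

end Fermat.Agent.S02
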