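/-
S09 (milestone row 8): `result` proves the frozen statement
`FreyPackage.Mazur_Frey`.

Row: Mazur: the mod-p Galois representation of the Frey curve is irreducible.
-/
import Fermat.Statements.S09
import Fermat.Agent.EC.Reducible.FreyIrreducible
import Fermat.Agent.S15

set_option autoImplicit false
open WeierstrassCurve WeierstrassCurve.Affine WeierstrassCurve.Affine.Point
open CuspForm ModularFormClass UpperHalfPlane
open FreyPackage

namespace Fermat.Agent.S09

theorem result (P : FreyPackage) : GaloisRepIsIrreducible (K := AlgebraicClosure ℚ) ℚ P.freyCurve P.p := by
  exact Fermat.Agent.EC.Reducible.frey_irreducible @Fermat.Agent.S15.result P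

end Fermat.Agent.S09
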