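/-
S44 (milestone row 38): `result` proves the frozen statement
`FreyPackage.level_lowering_at_p_of_conductorLevel`.

Row: Mazur–Ribet: for an odd prime p and a curve semistable at p with irreducible mod-p
representation that is residually modular of a level M exactly divisible by p, if the
representation is peu ramifiée at p — or if the curve has good reduction at p — it is residually
modular of level M/p; or the Frey-curve form: p can be removed from a conductor level.
-/
import Fermat.Statements.S44
import Fermat.Agent.LevelLowerP.Final
import Fermat.Agent.LevelLowerP.GeoModel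

set_option autoImplicit false
open WeierstrassCurve WeierstrassCurve.Affine WeierstrassCurve.Affine.Point
open CuspForm ModularFormClass UpperHalfPlane
open FreyPackage

namespace Fermat.Agent.S44

theorem result (P : FreyPackage) {N : ℕ} (hcond : P.IsConductorLevel N) (hpN : P.p ∣ N) (hirr : GaloisRepIsIrreducible (K := AlgebraicClosure ℚ) ℚ P.freyCurve P.p) (hmod : P.ModularRepOfLevel N) : ∃ M : ℕ, M ∣ N ∧ ¬ P.p ∣ M ∧ P.ModularRepOfLevel M :=
  Fermat.Agent.LevelLowerP.exists_level_not_dvd
    (fun _ _ _ _ _ _ _ _ _ _ _ _ _ _ S U hp M _ hpM h2 h3 =>
      Fermat.Agent.LevelLowerP.exists_geoModel S M U (by omega) hpM h2 h3) P hcond hpN hirr hmod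

end Fermat.Agent.S44
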