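/-
S01 (milestone row 1): `result` proves the frozen statement
`fermat_last_theorem`.

Row: Fermat's Last Theorem, elementary form: for n ≥ 3 and positive integers a, b, c, aⁿ + bⁿ ≠ cⁿ
(the root; kernel-checked ⇒ score 1.0).
-/
import Fermat.Statements.S01
import Fermat.Agent.Root.Wrappers.Main
import Fermat.Agent.S09
import Fermat.Agent.S44

set_option autoImplicit false

namespace Fermat.Agent.S01

theorem result (n : ℕ) (hn : 3 ≤ n) (a b c : ℕ) (ha : 0 < a) (hb : 0 < b) (hc : 0 < c) : a ^ n + b ^ n ≠ c ^ n := by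
  exact Fermat.Agent.Root.Wrappers.fermat @Fermat.Agent.S09.result @Fermat.Agent.S44.result n hn a b c ha hb hc

end Fermat.Agent.S01
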