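/-
S03 (milestone row 3): `result` proves the frozen statement
`FreyPackage.no_frey_package`.

Row: No Frey package exists (Fermat's Last Theorem for prime exponents p ≥ 5).
-/
import Fermat.Statements.S03
import Fermat.Agent.Root.Wrappers.Main
import Fermat.Agent.S09
import Fermat.Agent.S44

set_option autoImplicit false
open FreyPackage

namespace Fermat.Agent.S03

theorem result (P : FreyPackage) : False := by
  exact Fermat.Agent.Root.Wrappers.no_freyPackage @Fermat.Agent.S09.result @Fermat.Agent.S44.result P

end Fermat.Agent.S03
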