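/-
S06 (milestone row 6): `result` proves the frozen statement
`FreyPackage.modularRepOfConductorLevel`.

Row: The mod-p representation of the Frey curve is modular of some level N that is a conductor
level of the Frey package.
-/
import Fermat.Statements.S06
import Fermat.Agent.Root.Wrappers.Main

set_option autoImplicit false
open WeierstrassCurve WeierstrassCurve.Affine WeierstrassCurve.Affine.Point
open CuspForm ModularFormClass UpperHalfPlane
open FreyPackage

namespace Fermat.Agent.S06

theorem result (P : FreyPackage) : ∃ N : ℕ, P.IsConductorLevel N ∧ P.ModularRepOfLevel N := by
  exact Fermat.Agent.Root.Wrappers.exists_conductorLevel_modularRep P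

end Fermat.Agent.S06
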