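/-
S08 (milestone row 7): `result` proves the frozen statement
`ModularForm.S2_Gamma0_one_eq_zero`.

Row: Every weight-2 cusp form of level Γ₀(2) is zero, and every weight-2 cusp form of level Γ₀(1)
is zero.
-/
import Fermat.Statements.S08
import Fermat.Agent.Elem.CuspWeightTwo

set_option autoImplicit false
open WeierstrassCurve WeierstrassCurve.Affine WeierstrassCurve.Affine.Point
open CuspForm ModularFormClass UpperHalfPlane
open ModularForm

namespace Fermat.Agent.S08

theorem result (f : CuspForm (CongruenceSubgroup.Gamma0 1) 2) : f = 0 := by
  exact Elem.cuspForm_two_eq_zero_of_index_lt 1 ((by rw [Elem.index_Gamma0_one]; norm_num)) f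

end Fermat.Agent.S08
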