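/-
S16 (milestone row 15): `result` proves the frozen statement
`ModularCurve.natCard_heckeLatticeAlgebra_quotient_eisensteinIdeal_eq_eisensteinNumerator`.

Row: For every prime p, the index of the image of the Eisenstein ideal in the integral Hecke
algebra of weight 2 and level p equals (p−1)/gcd(p−1, 12).
-/
import Fermat.Statements.S16
import Fermat.Agent.Eisenstein.Upper
import Fermat.Agent.Eisenstein.Lower

set_option autoImplicit false
open ModularCurve CuspForm
open ModularCurve

namespace Fermat.Agent.S16

theorem result
    (p : ℕ) [Fact p.Prime] :
    Nat.card (↥(heckeLatticeAlgebra p ∅) ⧸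
        Ideal.map ((latticeRestrictHom p ∅).toRingHom.comp (heckeEvalForms p 2))
          (eisensteinIdeal p)) =
      eisensteinNumerator p :=
  Fermat.Agent.Eisenstein.natCard_quotient_eq _ Fermat.Agent.Eisenstein.exists_congr_cuspForm
    (fun g _ m h => Fermat.Agent.Eisenstein.congr_modulus_dvd g m h)

end Fermat.Agent.S16
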