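/-
S18 (milestone row 17): `result` proves the frozen statement
`ModularCurve.eq_zero_of_reductionModL_eq_zero_of_nsmul_eq_zero`.

Row: For a prime ℓ not dividing N and a place above ℓ carrying reduction data for X₀(N): a point
of J₀(N) killed by some m prime to ℓ whose reduction mod ℓ vanishes is zero.
-/
import Fermat.Statements.S18
import Fermat.Agent.Reduction.ModL

set_option autoImplicit false
open ModularCurve

namespace Fermat.Agent.S18

theorem result (N : ℕ) [NeZero N] {ℓ : ℕ}
    [Fact ℓ.Prime] (hℓN : ¬ ℓ ∣ N) (A : ValuationSubring (AlgebraicClosure ℚ)) (hA : A.LiesOverPrime ℓ)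
    (h : ModularCurve.ReductionInputsModL A N) (m : ℕ) (hm : ¬ ℓ ∣ m) (z : ModularCurve.JZero N)
    (hmz : m • z = 0) (hz : ModularCurve.reductionModL A N z = 0) :
    z = 0 :=
  Fermat.Agent.Reduction.reductionModL_injective N hℓN A hA h m hm z hmz hz

end Fermat.Agent.S18
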