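/-
S19 (milestone row 18): `result` proves the frozen statement
`ModularCurve.exists_finiteFlat_model_jZero_torsion`.

Row: For a prime ℓ not dividing the level N and every k, the ℓᵏ-torsion of J₀(N) is,
Galois-equivariantly, the ℚ̄-points of a finite flat commutative group scheme (cocommutative Hopf
algebra) over ℤ₍ℓ₎.
-/
import Fermat.Statements.S19
import Fermat.Agent.FlatModel.JZero
import Fermat.Agent.FlatModel.Hopf

set_option autoImplicit false
open ModularCurve

namespace Fermat.Agent.S19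

theorem result
    (p : ℕ) [NeZero p] (ℓ : ℕ) [Fact ℓ.Prime] (hℓp : ¬ ℓ ∣ p) (k : ℕ) :
    ∃ (H : Type) (_ : CommRing H) (_ : HopfAlgebra (GaloisRep.ratLocalizedAt ℓ) H),
      Module.Finite (GaloisRep.ratLocalizedAt ℓ) H ∧ Module.Flat (GaloisRep.ratLocalizedAt ℓ) H ∧
      Coalgebra.IsCocomm (GaloisRep.ratLocalizedAt ℓ) H ∧
      ∃ e : WithConv (H →ₐ[GaloisRep.ratLocalizedAt ℓ] AlgebraicClosure ℚ) ≃
          ↥(Submodule.torsionBy ℤ (JZero p) ((ℓ : ℤ) ^ k)),
        (∀ f g, e (f * g) = e f + e g) ∧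
        ∀ (σ : AlgebraicClosure ℚ ≃ₐ[ℚ] AlgebraicClosure ℚ)
          (f g : WithConv (H →ₐ[GaloisRep.ratLocalizedAt ℓ] AlgebraicClosure ℚ)),
          (∀ h : H, g h = σ (f h)) → ((e g : JZero p)) = σ • (e f : JZero p) := by
  obtain ⟨M⟩ := FlatModel.nonempty_model_torsion (N := p) hℓp k
  have : Finite ↥(Submodule.torsionBy ℤ (JZero p) ((ℓ : ℤ) ^ k)) := by
    have : NeZero (ℓ ^ k) := ⟨pow_ne_zero k (Fact.out : ℓ.Prime).ne_zero⟩
    have h := FlatModel.finite_torsion p (ℓ ^ k)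
    exact Finite.of_injective
      (β := AlgebraicCurve.Pic0.torsion (AlgebraicClosure ℚ) (modularFunctionFieldBar p) (ℓ ^ k))
      (fun x => ⟨(x : JZero p), AlgebraicCurve.Pic0.mem_torsion.mpr (by
        rw [Nat.cast_pow]
        exact (Submodule.mem_torsionBy_iff _ _).mp x.2)⟩)
      fun x y h => Subtype.ext (congrArg Subtype.val h)
  obtain ⟨H, i₁, i₂, hfin, hflat, hco, e, hadd, hgal⟩ := M.exists_hopfAlgebra
  exact ⟨H, i₁, i₂, hfin, hflat, hco, e, hadd,
    fun σ f g hfg => congrArg Subtype.val (hgal σ f g hfg)⟩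

end Fermat.Agent.S19
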