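/-
S23 (milestone row 22): `result` proves the frozen statement
`CuspForm.hasIntegralStructure_two`.

Row: S₂(Γ₀(N)) has an integral structure (a basis of forms with integral q-expansions, in the
prelude's sense HasIntegralStructure).
-/
import Fermat.Statements.S23
import Fermat.Agent.MFCore.Integral

set_option autoImplicit false
open CuspForm

namespace Fermat.Agent.S23

theorem result (N : ℕ) [NeZero N] : CuspForm.HasIntegralStructure N 2 := by
  exact Fermat.Agent.MFCore.hasIntegralStructure N 2

end Fermat.Agent.S23
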