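/-
S25 (milestone row 24): `result` proves the frozen statement
`AlgebraicGeometry.RelPicard.exists_representsRelSubPic_algEquivZeroCut_of_isAlgClosed`.

Row: A proper, smooth (relative dimension 1), integral curve over an algebraically closed field
with a rational point has a Jacobian: its degree-0 relative Picard functor is represented by a
smooth, proper, geometrically connected scheme.
-/
import Fermat.Statements.S25
import Fermat.Agent.Jac.Main

set_option autoImplicit false
universe u
open CategoryTheory CategoryTheory.Limits AlgebraicGeometry AlgebraicGeometry.RelPicard NeronModelInfra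
  GoodReductionJacobian
open AlgebraicGeometry AlgebraicGeometry.RelPicard

namespace Fermat.Agent.S25

theorem result
    (k : Type u) [Field k] [IsAlgClosed k] {C : Scheme.{u}} (c : C ⟶ Spec (CommRingCat.of k))
    [IsProper c] [SmoothOfRelativeDimension 1 c] [IsIntegral C]
    (ε : SchemeHomOver (𝟙 (Spec (CommRingCat.of k))) c) :
    ∃ D : RelativePic0Designation k c,
      Nonempty (RepresentsRelSubPic c ε (algEquivZeroCut c ε) D) ∧
        Smooth D.toBase ∧ IsProper D.toBase ∧ GeometricallyConnected D.toBase := by
  exact Fermat.Agent.Jac.exists_jacobian k c ε

end Fermat.Agent.S25
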