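/-
S27 (milestone row 26): `result` proves the frozen statement
`AlgebraicCurve.Pic0.natCard_torsion_pow_eq_pow_two_mul_genusFF_mul_of_charZero`.

Row: The function field of a curve of genus g over an algebraically closed field of characteristic
0 has exactly ℓ^{2gk} degree-0 divisor classes killed by ℓᵏ.
-/
import Fermat.Statements.S27
import Fermat.Agent.FF.Kaehler
import Fermat.Agent.CurveTorsion.Models

set_option autoImplicit false
open AlgebraicCurve
open AlgebraicCurve AlgebraicCurve.Pic0

namespace Fermat.Agent.S27

theorem result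
    (K F : Type*) [Field K] [Field F] [Algebra K F] [IsAlgClosed K] [CharZero K]
    [IsCurveOver K F] [Algebra.EssFiniteType K F]
    (ℓ : ℕ) [Fact ℓ.Prime] (k : ℕ) :
    Nat.card (Pic0.torsion K F (ℓ ^ k)) = ℓ ^ (2 * genusFF K F * k) := by
  have := Fermat.Agent.FF.isFunctionField_of_isCurveOver K F
  rw [mul_comm (2 * genusFF K F) k, pow_mul]
  exact Fermat.Agent.CurveTorsion.natCard_torsion (ℓ ^ k)
    (pow_ne_zero _ (Fact.out : ℓ.Prime).ne_zero)

end Fermat.Agent.S27
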