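/-
S37 (milestone row 36): `result` proves the frozen statement
`ModularCurve.specializationExists_JZero`.

Row: Eichler–Shimura congruence relation, in the prelude's packaged form SpecializationExists: for
all N and p, if the Hecke operators on J₀(N) commute, then at every prime ℓ not dividing Np there
is a good-reduction specialization of J₀(N) on which Frobenius F satisfies F² − T_ℓF + ℓ = 0.
-/
import Fermat.Statements.S37
import Fermat.Agent.Reduction.Specialisation

set_option autoImplicit false
open ModularCurve

namespace Fermat.Agent.S37

theorem result (N p : ℕ) [NeZero N] (hcomm : ModularCurve.HeckeOperatorsCommuteBar N) : letI := ModularCurve.heckeModuleBar N; ∀ (_ : SMulCommClass (AlgebraicClosure ℚ ≃ₐ[ℚ] AlgebraicClosure ℚ) ModularCurve.HeckeAlg (ModularCurve.JZero N)), ModularCurve.SpecializationExists (K := ℚ) (L := AlgebraicClosure ℚ) N p (ModularCurve.JZero N) := by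
  exact Fermat.Agent.Reduction.specializationExists_JZero N p hcomm

end Fermat.Agent.S37
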