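/-
S38 (milestone row 37): `result` proves the frozen statement
`WeierstrassCurve.isResiduallyModularOfLevel_div_of_isUnramifiedAt_sqf`.

Row: Ribet's level lowering: for an odd prime p and a semistable curve with irreducible mod-p
representation (p² points of p-torsion, finite image) that is residually modular of a squarefree
level M and unramified at a prime q ≠ p dividing M, it is residually modular of level M/q — or the
Frey-curve form: an odd prime q ≠ p dividing a conductor level N at which the Frey representation
is unramified can be removed from the level.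
-/
import Fermat.Statements.S38
import Fermat.Agent.ResidualLevel.Lower

set_option autoImplicit false
open WeierstrassCurve WeierstrassCurve.Affine WeierstrassCurve.Affine.Point
open WeierstrassCurve

namespace Fermat.Agent.S38

theorem result
    (p : ℕ) [Fact p.Prime] (_hp2 : p ≠ 2) (W : WeierstrassCurve ℤ) (_hΔ : W.Δ ≠ 0)
    (_hW : W.IsSemistableModel)
    (hcard₁ : Nat.card (Submodule.torsionBy ℤ
      ((W.map (Int.castRingHom ℚ))⁄(AlgebraicClosure ℚ)).Point p) = p ^ 2)
    (hker : GaloisFactorsThroughFiniteLevel
      (WeierstrassCurve.Affine.Point.galoisRepModuleEnd (K := AlgebraicClosure ℚ) ℚ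
        (W.map (Int.castRingHom ℚ)) p))
    (_hirr : W.ModRepIsIrreducible p) (M q : ℕ) (hq : q.Prime) (hqp : q ≠ p)
    (hqM : q ∣ M) (hq2 : ¬ q ^ 2 ∣ M) (hM : Squarefree M)
    (hunr : ((W.map (Int.castRingHom ℚ)).residualGaloisRepOf p hcard₁ hker).IsUnramifiedAt q)
    (hres : W.IsResiduallyModularOfLevel p M) :
    W.IsResiduallyModularOfLevel p (M / q) := by
  exact ResidualLevel.isResiduallyModularOfLevel_div ⟨_hΔ, _hW⟩ _hp2 _hirr hM hq hqM hqp
    (ResidualLevel.unramifiedMod_of_isUnramifiedAt hcard₁ hker hunr) hres

end Fermat.Agent.S38
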