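/-
S39 (milestone row 38): `result` proves the frozen statement
`WeierstrassCurve.isResiduallyModularOfLevel_div_of_isPeuRamifieeAt`.

Row: Mazur–Ribet: for an odd prime p and a curve semistable at p with irreducible mod-p
representation that is residually modular of a level M exactly divisible by p, if the
representation is peu ramifiée at p — or if the curve has good reduction at p — it is residually
modular of level M/p; or the Frey-curve form: p can be removed from a conductor level.
-/
import Fermat.Statements.S39
import Fermat.Agent.LevelLowerP.LowerModel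

set_option autoImplicit false
open WeierstrassCurve

namespace Fermat.Agent.S39

theorem result
    (W : WeierstrassCurve ℤ) (hΔ : W.Δ ≠ 0)
    {p : ℕ} (hp : p.Prime) (hp2 : p ≠ 2)
    (hsemi : (p : ℤ) ∣ W.Δ → ¬ (p : ℤ) ∣ W.c₄)
    (hirr : W.ModRepIsIrreducible p)
    (hfin : (W.map (Int.castRingHom ℚ)).IsPeuRamifieeAt p p)
    {M : ℕ} (hM : 0 < M) (hpM : p ∣ M) (hp2M : ¬ p ^ 2 ∣ M)
    (hmod : W.IsResiduallyModularOfLevel p M) :
    W.IsResiduallyModularOfLevel p (M / p) := by
  by_cases hd : (p : ℤ) ∣ W.Δ
  · refine Fermat.Agent.LevelLowerP.isResiduallyModularOfLevel_div_self hΔ hp hp2 hirr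
      (Or.inr ⟨hd, hsemi hd, ?_⟩) hM hpM hp2M hmod
    have h : (p : ℤ) ∣ padicValRat p ((W.map (Int.castRingHom ℚ)).Δ) := hfin
    rw [WeierstrassCurve.map_Δ, eq_intCast, padicValRat.of_int] at h
    exact_mod_cast h
  · exact Fermat.Agent.LevelLowerP.isResiduallyModularOfLevel_div_self hΔ hp hp2 hirr (Or.inl hd) hM hpM
      hp2M hmod

end Fermat.Agent.S39
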