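/-
S41 (milestone row 39): `result` proves the frozen statement
`WeierstrassCurve.exists_newAt_congruentEigenform_of_levelRaisingCongruence`.

Row: Level raising (Ribet, Diamond–Taylor): if a weight-2 normalised eigenform of level N is
congruent modulo a maximal ideal over an odd prime p to an elliptic curve with irreducible mod-p
representation, and a_{q'}² ≡ (q'+1)² for a prime q' not dividing Np, then some weight-2 eigenform
of level Nq', new at q', is congruent to the curve as well.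
-/
import Fermat.Statements.S41
import Fermat.Agent.Ihara.LevelRaising
import Fermat.Agent.Ihara.NonEisenstein

set_option autoImplicit false
open WeierstrassCurve WeierstrassCurve.Affine WeierstrassCurve.Affine.Point
open scoped CongruenceSubgroup
open WeierstrassCurve

namespace Fermat.Agent.S41

theorem result
    (E : WeierstrassCurve ℚ) [E.IsElliptic] {W : WeierstrassCurve ℤ} (hW : W.IsIntegralModelOf E)
    {p N q' : ℕ} (hp : p.Prime) (hp2 : p ≠ 2) (hN : 0 < N) (hq' : q'.Prime) (hq'N : ¬ q' ∣ N) (hq'p : q' ≠ p)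
    (hirr : GaloisRepIsIrreducible (K := AlgebraicClosure ℚ) ℚ E p)
    (f : CuspForm (CongruenceSubgroup.Gamma0 N) 2) (𝔪 : Ideal (integralClosure ℤ ℂ))
    (hf : f.IsNormalizedEigenform) (hmax : 𝔪.IsMaximal) (hpm : (p : integralClosure ℤ ℂ) ∈ 𝔪)
    (hcong : ∀ ℓ : ℕ, ℓ.Prime → W.IsGoodPrimeFor ℓ → ¬ ℓ ∣ N → ℓ ≠ p →
      ∃ a : integralClosure ℤ ℂ, (a : ℂ) = ModularFormClass.qCoeff f ℓ ∧
        a - ((W.apOfModel ℓ : ℤ) : integralClosure ℤ ℂ) ∈ 𝔪)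
    (hLR : ∃ a : integralClosure ℤ ℂ, (a : ℂ) = ModularFormClass.qCoeff f q' ∧
      a ^ 2 - ((q' : integralClosure ℤ ℂ) + 1) ^ 2 ∈ 𝔪) :
    ∃ (g : CuspForm (CongruenceSubgroup.Gamma0 (N * q')) 2) (𝔪' : Ideal (integralClosure ℤ ℂ)),
      g.IsNormalizedEigenform ∧ 𝔪'.IsMaximal ∧ (p : integralClosure ℤ ℂ) ∈ 𝔪' ∧
      (∀ ℓ : ℕ, ℓ.Prime → W.IsGoodPrimeFor ℓ → ¬ ℓ ∣ N * q' → ℓ ≠ p →
        ∃ a : integralClosure ℤ ℂ, (a : ℂ) = ModularFormClass.qCoeff g ℓ ∧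
          a - ((W.apOfModel ℓ : ℤ) : integralClosure ℤ ℂ) ∈ 𝔪') ∧
      g.IsNewAt q' := by
  have : NeZero N := ⟨hN.ne'⟩
  have : Fact q'.Prime := ⟨hq'⟩
  obtain ⟨ℓ₀, hℓ₀, hgood, hne, hndvd, hℓ₀1, hap⟩ :=
    Ihara.exists_nonEisenstein_prime E hW hp hp2 hirr (N * q')
  obtain ⟨g, 𝔪', hg, h𝔪', hp𝔪', hcong', hnew⟩ :=
    Ihara.exists_congruent_newAt hq' hq'N hp hp2 f hf 𝔪 hmax hpm
      (fun ℓ => W.IsGoodPrimeFor ℓ ∧ ℓ ≠ p) W.apOfModel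
      (fun ℓ hℓ h hℓN => hcong ℓ hℓ h.1 hℓN h.2) hLR
      ⟨ℓ₀, hℓ₀, ⟨hgood, hne⟩, hndvd, hℓ₀1, hap⟩
  exact ⟨g, 𝔪', hg, h𝔪', hp𝔪',
    fun ℓ hℓ hgood' hℓNq hℓp => hcong' ℓ hℓ ⟨hgood', hℓp⟩ hℓNq, hnew⟩

end Fermat.Agent.S41
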