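/-
S42 (milestone row 40): `result` proves the frozen statement
`FreyPackage.eigenformResidualAttachmentAtFamily`.

Row: For the Frey package's prime p and every level M > 0, the prelude property
EigenformResidualAttachmentAt M holds: every weight-2 normalised eigenform on Γ₀(M) and maximal
ideal over p has an attached 2-dimensional residual Galois representation with the expected
Frobenius traces and determinants, factoring through a finite Galois extension together with the
Frey representation.
-/
import Fermat.Statements.S42
import Fermat.Agent.GalRep.Frey
import Fermat.Agent.Reduction.Specialisation

set_option autoImplicit false
open FreyPackage

namespace Fermat.Agent.S42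

theorem result (P : FreyPackage) :
    ∀ M : ℕ, 0 < M → P.EigenformResidualAttachmentAt M := by
  exact Fermat.Agent.GalRep.eigenformResidualAttachmentAt_of_torsionReduction (fun N p _ _ => Fermat.Agent.Reduction.torsionReduction N p) P

end Fermat.Agent.S42
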