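/-
S43 (milestone row 37): `result` proves the frozen statement
`FreyPackage.level_lowering_odd_prime_of_conductorLevel`.

Row: Ribet's level lowering: for an odd prime p and a semistable curve with irreducible mod-p
representation (p² points of p-torsion, finite image) that is residually modular of a squarefree
level M and unramified at a prime q ≠ p dividing M, it is residually modular of level M/q — or the
Frey-curve form: an odd prime q ≠ p dividing a conductor level N at which the Frey representation
is unramified can be removed from the level.
-/
import Fermat.Statements.S43
import Fermat.Agent.Root.Wrappers.Main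
import Fermat.Agent.S44

set_option autoImplicit false
open WeierstrassCurve WeierstrassCurve.Affine WeierstrassCurve.Affine.Point
open CuspForm ModularFormClass UpperHalfPlane
open FreyPackage

namespace Fermat.Agent.S43

theorem result (P : FreyPackage) {N q : ℕ} (hcond : P.IsConductorLevel N) (hq : q.Prime) (hq2 : q ≠ 2) (hqp : q ≠ P.p) (hqN : q ∣ N) (hirr : GaloisRepIsIrreducible (K := AlgebraicClosure ℚ) ℚ P.freyCurve P.p) (hmod : P.ModularRepOfLevel N) (hunr : P.GaloisRepUnramifiedAt q) : ∃ M : ℕ, M ∣ N ∧ ¬ q ∣ M ∧ P.ModularRepOfLevel M := by
  exact Fermat.Agent.Root.Wrappers.lowering_odd_prime @Fermat.Agent.S44.result P hcond hq hq2 hqp hqN hirr hmod hunr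

end Fermat.Agent.S43
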