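/-
S46 (milestone row 42): `result` proves the frozen statement
`FLT.No2BridgeWiring.weightOneNewformExists_not_cube_dvd`.

Row: Langlands–Tunnell, three accepted forms: (i) a semistable curve with irreducible mod-3
representation admits a weight-one-type integral Hecke eigensystem with character χ₋₃,
lattice-realised in weight-2 forms of a level that is cube-free away from 3, congruent to the
curve's a_ℓ mod 3; (ii) a surjective ρ̄ : G_ℚ → GL₂(𝔽₃) with mod-3 cyclotomic determinant,
together with a lift section to GL₂(ℤ[√−2]), is the trace reduction of a realised weight-one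
eigensystem with character χ₋₃; (iii) a semistable curve with irreducible mod-3 representation is
residually modular at 3 of some positive level, cube-free away from 3, with no inertia-fixed
3-torsion when 9 divides the level.
-/
import Fermat.Statements.S46
import Fermat.Agent.ResidualEigen.Newform

set_option autoImplicit false
open WeierstrassCurve CuspForm EisensteinWeightOne FormalHecke
open FLT FLT.No2BridgeWiring

namespace Fermat.Agent.S46

theorem result :
    ∀ W : WeierstrassCurve ℤ, W.Δ ≠ 0 → W.IsSemistableModel → W.ModRepIsIrreducible 3 →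
      ∃ (N : ℕ) (_ : NeZero N) (a : ℕ → ℤ),
        CuspForm.HasIntegralBasis N ∧
        FormalHecke.IsEigensystem
          (fun ℓ => if ℓ ∣ N then 0 else ((chiNegThree ℓ : ℤ) : ℤ)) a ∧
        CuspForm.IsLatticeRealized N a ∧
        (∀ q : ℕ, q.Prime → q ≠ 3 → ¬ q ^ 3 ∣ N) ∧
        ∀ ℓ : ℕ, ℓ.Prime → W.IsGoodPrimeFor ℓ → ¬ ℓ ∣ N → ℓ ≠ 3 →
          (3 : ℤ) ∣ (a ℓ - W.apOfModel ℓ) := by
  exact Fermat.Agent.ResidualEigen.exists_eigensystem

end Fermat.Agent.S46
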