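/-
S48 (milestone row 43): `result` proves the frozen statement
`DeligneSerre.exists_galoisRep_of_weightOne_qCoeff_hecke_eigen`.

Row: Deligne–Serre: a weight-1 cusp form on Γ₁(N) with a₁ = 1 whose coefficients satisfy the Hecke
relations for a Dirichlet character ε has an attached irreducible representation G_ℚ → GL₂(ℂ) with
finite image, unramified at primes not dividing N, with Frobenius trace a_p and determinant ε(p).
-/
import Fermat.Statements.S48
import Fermat.Agent.DeligneSerre.Algebra.Main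
import Fermat.Agent.DeligneSerre.EigenClass
import Fermat.Agent.DeligneSerre.ModRepOfClass

set_option autoImplicit false
open CongruenceSubgroup
open scoped MatrixGroups
local notation "Γℚ" => (AlgebraicClosure ℚ ≃ₐ[ℚ] AlgebraicClosure ℚ)
open DeligneSerre

namespace Fermat.Agent.S48

open Fermat.Agent.DeligneSerre (WeightOneEigen exists_artinRep modRep_of_eigen)
open ModularFormClass (qCoeff)

theorem result
    (N : ℕ) [NeZero N] (ε : DirichletCharacter ℂ N) (f : CuspForm (Gamma1 N) 1)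
    (hf₁ : ModularFormClass.qCoeff f 1 = 1)
    (hT : ∀ p : ℕ, p.Prime → ¬ p ∣ N → ∀ n : ℕ,
        ModularFormClass.qCoeff f (p * n) +
            ε (p : ZMod N) * (if p ∣ n then ModularFormClass.qCoeff f (n / p) else 0) =
          ModularFormClass.qCoeff f p * ModularFormClass.qCoeff f n) :
    ∃ ρ : Γℚ →* GL (Fin 2) ℂ, GaloisFactorsThroughFiniteLevel ρ ∧
      (Deformation.matrixRepresentation ρ).IsIrreducible ∧
      ∀ p : ℕ, p.Prime → ¬ p ∣ N →
        ∀ A : ValuationSubring (AlgebraicClosure ℚ), A.LiesOverPrime p →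
          (∀ σ ∈ A.inertiaSubgroupIn ℚ, ρ σ = 1) ∧
          ∀ σ : Γℚ, A.IsFrobeniusAt σ p →
            ((ρ σ : GL (Fin 2) ℂ) : Matrix (Fin 2) (Fin 2) ℂ).trace = ModularFormClass.qCoeff f p ∧
            ((ρ σ : GL (Fin 2) ℂ) : Matrix (Fin 2) (Fin 2) ℂ).det = ε (p : ZMod N) := by
  classical
  have h : WeightOneEigen N ε f := ⟨hf₁, hT⟩
  obtain ⟨R, hR, hε, hap, hB⟩ := h.exists_coeffRing
  let a : ℕ → R := fun p => if hp : p.Prime ∧ ¬ p ∣ N then ⟨qCoeff f p, hap p hp.1 hp.2⟩ else 0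
  let e : ℕ → R := fun p => ⟨ε (p : ZMod N), hε _⟩
  have ha : ∀ p : ℕ, p.Prime → ¬ p ∣ N → (a p : ℂ) = qCoeff f p := fun p hp hpN => by
    simp [a, hp, hpN]
  have he : ∃ k > 0, ∀ p : ℕ, p.Prime → ¬ p ∣ N → e p ^ k = 1 := by
    refine ⟨N.totient, Nat.totient_pos.2 (NeZero.pos N), fun p hp hpN => Subtype.ext ?_⟩
    have hu := ZMod.pow_totient (ZMod.unitOfCoprime p ((Nat.Prime.coprime_iff_not_dvd hp).2 hpN))
    have := congrArg (fun u : (ZMod N)ˣ => ε (u : ZMod N)) hu
    simp only [Units.val_pow_eq_pow_val, ZMod.coe_unitOfCoprime, map_pow, Units.val_one,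
      map_one] at this
    simpa [e] using this
  have hmod : ∀ (l : ℕ) [Fact l.Prime], 5 < l → ∀ π : R →+* ZMod l,
      DeligneSerre.ModRep l N (fun p => π (a p)) (fun p => π (e p)) := by
    intro l hlp hl π
    have : NeZero l := ⟨hlp.out.ne_zero⟩
    have : NeZero (N * l) := ⟨mul_ne_zero (NeZero.ne N) hlp.out.ne_zero⟩
    have : Fact (5 ≤ N * l) :=
      ⟨le_trans hl.le (Nat.le_mul_of_pos_left l (NeZero.pos N))⟩
    obtain ⟨w, hw, hdia, hheck⟩ := h.exists_eigenClass R hε hap l (by omega) π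
    let E : ZMod N →* ZMod l :=
      { toFun := fun x => π ⟨ε x, hε x⟩
        map_one' := by
          rw [show (⟨ε 1, hε 1⟩ : R) = 1 from Subtype.ext (by simp), map_one]
        map_mul' := fun x y => by
          rw [← map_mul]
          exact congrArg π (Subtype.ext (map_mul ε x y)) }
    refine modRep_of_eigen (a := fun p => π (a p)) hl.le E
      (fun u => π ⟨ε (ZMod.castHom (dvd_mul_right N l) (ZMod N) (u : ZMod (N * l))), hε _⟩ *
        (ZMod.castHom (dvd_mul_left l N) (ZMod l) (u : ZMod (N * l)))⁻¹)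
      (fun p hp hpM => ?_) hw hdia fun p hp hpM => ?_
    · have hp0 : (p : ZMod l) ≠ 0 := by
        rw [Ne, ZMod.natCast_eq_zero_iff]
        intro hd
        exact hpM (((Nat.prime_dvd_prime_iff_eq hlp.out hp).1 hd) ▸ dvd_mul_left l N)
      simp only [Fermat.Agent.GammaH.coe_primeUnit, map_natCast]
      rw [mul_left_comm, mul_inv_cancel₀ hp0, mul_one]
      rfl
    · have hpN : ¬ p ∣ N := fun h' => hpM (h'.trans (dvd_mul_right N l))
      rw [hheck p hp hpM]
      exact congrArg (fun x => π x • w) (Subtype.ext (ha p hp hpN).symm)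
  obtain ⟨ρ, h1, h2, h3⟩ := exists_artinRep N R a e he (fun τ => hB τ a ha) 5 hmod
  refine ⟨ρ, h1, h2, fun p hp hpN A hA => ⟨(h3 p hp hpN A hA).1, fun σ hσ => ?_⟩⟩
  obtain ⟨htr, hdet⟩ := (h3 p hp hpN A hA).2 σ hσ
  exact ⟨htr.trans (ha p hp hpN), hdet⟩

end Fermat.Agent.S48
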