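/-
S50 (milestone row 42): `result` proves the frozen statement
`WeierstrassCurve.isResiduallyModular_three_and_noInertiaFixedTorsion_and_not_cube_dvd_of_isSemistableModel`.

Row: Langlands–Tunnell, three accepted forms: (i) a semistable curve with irreducible mod-3
representation admits a weight-one-type integral Hecke eigensystem with character χ₋₃,
lattice-realised in weight-2 forms of a level that is cube-free away from 3, congruent to the
curve's a_ℓ mod 3; (ii) a surjective ρ̄ : G_ℚ → GL₂(𝔽₃) with mod-3 cyclotomic determinant,
together with a lift section to GL₂(ℤ[√−2]), is the trace reduction of a realised weight-one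
eigensystem with character χ₋₃; (iii) a semistable curve with irreducible mod-3 representation is
residually modular at 3 of some positive level, cube-free away from 3, with no inertia-fixed
3-torsion when 9 divides the level.
-/
import Fermat.Statements.S50
import Fermat.Agent.Root.ResidualThree

set_option autoImplicit false
open WeierstrassCurve WeierstrassCurve.Affine WeierstrassCurve.Affine.Point
open scoped WeierstrassCurve.Affine
open WeierstrassCurve

namespace Fermat.Agent.S50

theorem result
    (W : WeierstrassCurve ℤ) (hΔ : W.Δ ≠ 0) (hW : W.IsSemistableModel)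
    (h3 : W.ModRepIsIrreducible 3) :
    ∃ M : ℕ, 0 < M ∧ W.IsResiduallyModularOfLevel 3 M ∧
      (∀ q : ℕ, q.Prime → q ≠ 3 → ¬ q ^ 3 ∣ M) ∧
      (3 ^ 2 ∣ M →
        ∀ A : ValuationSubring (AlgebraicClosure ℚ), A.LiesOverPrime 3 →
          ∀ x : Submodule.torsionBy ℤ
              ((W.map (Int.castRingHom ℚ))⁄(AlgebraicClosure ℚ)).Point (3 : ℕ),
            (∀ σ ∈ A.inertiaSubgroupIn ℚ, σ • x = x) → x = 0) := by
  exact Fermat.Agent.Root.residual_three W hΔ hW h3

end Fermat.Agent.S50
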