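/-
S52 (milestone row 46): `result` proves the frozen statement
`WeierstrassCurve.threeFiveSwitchCurve`.

Row: The 3–5 switch: for a semistable curve with irreducible mod-5 representation there is a
semistable curve with irreducible mod-3 representation whose a_ℓ agree with it mod 5 at all common
good primes ℓ ≠ 5.
-/
import Fermat.Statements.S52
import Fermat.Agent.Switch.Family
import Fermat.Agent.Switch.Congruence
import Fermat.Agent.Switch.ModThree

set_option autoImplicit false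
open WeierstrassCurve WeierstrassCurve.Affine WeierstrassCurve.Affine.Point
open CuspForm ModularFormClass UpperHalfPlane
open WeierstrassCurve

namespace Fermat.Agent.S52

theorem result (W : WeierstrassCurve ℤ) (hΔ : W.Δ ≠ 0) (hW : W.IsSemistableModel) (h5 : W.ModRepIsIrreducible 5) : ∃ W' : WeierstrassCurve ℤ, W'.Δ ≠ 0 ∧ W'.IsSemistableModel ∧ W'.ModRepIsIrreducible 3 ∧ ∀ ℓ : ℕ, ℓ.Prime → W.IsGoodPrimeFor ℓ → W'.IsGoodPrimeFor ℓ → ℓ ≠ 5 → (5 : ℤ) ∣ (W'.apOfModel ℓ - W.apOfModel ℓ) := by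
  obtain ⟨t, c, h, v, κ, M, W', hv, hκ, hM, ⟨CP, hCP, hCP'⟩, ⟨TP, hTP, hTP'⟩, hfam⟩ :=
    Fermat.Agent.Switch.exists_family W hΔ hW
  have hab : (W.c₄ : AlgebraicClosure ℚ) ^ 3 ≠ (W.c₆ : AlgebraicClosure ℚ) ^ 2 := by
    intro he
    apply hΔ
    have h0 : (1728 : ℤ) * W.Δ = 0 := by
      rw [W.c_relation, sub_eq_zero]; exact_mod_cast he
    simpa using h0
  have hdet : v.1 * ((M : AlgebraicClosure ℚ) • (Fermat.Agent.Switch.covP v
        + (κ : AlgebraicClosure ℚ) • v)).2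
      - v.2 * ((M : AlgebraicClosure ℚ) • (Fermat.Agent.Switch.covP v
        + (κ : AlgebraicClosure ℚ) • v)).1 ≠ 0 := by
    have h1 := Fermat.Agent.Switch.det_pencil v (κ : AlgebraicClosure ℚ)
    have h2 := hv.dP_ne_zero hab
    simp only [Prod.smul_fst, Prod.smul_snd, smul_eq_mul]
    intro h0
    apply mul_ne_zero (Int.cast_ne_zero.2 hM) (mul_ne_zero (by norm_num : (12 : AlgebraicClosure ℚ) ≠ 0) h2)
    linear_combination h0 - (M : AlgebraicClosure ℚ) * h1
  have hd : Fermat.Agent.Switch.dP ((M : AlgebraicClosure ℚ) • (Fermat.Agent.Switch.covP v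
      + (κ : AlgebraicClosure ℚ) • v)) ≠ 0 := by
    simp only [Fermat.Agent.Switch.dP, Prod.smul_fst, Prod.smul_snd, smul_eq_mul,
      Fermat.Agent.Switch.dF_smul]
    exact mul_ne_zero (pow_ne_zero _ (Int.cast_ne_zero.2 hM)) hκ
  obtain ⟨s, hs, hirr⟩ :=
    Fermat.Agent.Switch.exists_irreducible_three hdet hd hCP hTP W' hCP' hTP'
  exact ⟨W' s, hs, (hfam s).1, hirr, fun ℓ hℓ hg hg' h5' =>
    Fermat.Agent.Switch.dvd_apOfModel_sub hΔ hs h hv (hfam s).2.1 (hfam s).2.2.1 hℓ hg hg' h5'⟩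

end Fermat.Agent.S52
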