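/-
S54 (milestone row 48): `result` proves the frozen statement
`GaloisRep.DeformationRingData.exists_surjective_algHom_of_heckeGaloisRepDatum`.

Row: R ↠ T: a universal deformation ring maps surjectively onto the coefficient ring T of any
Hecke–Galois datum whose representation satisfies the deformation condition and reduces to the
given residual representation, compatibly with the representations.
-/
import Fermat.Statements.S54
import Fermat.Agent.Gal.Frobenius

set_option autoImplicit false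
open GaloisRep GaloisRep.DeformationRingData

namespace Fermat.Agent.S54

theorem result {𝒪 : Type} [CommRing 𝒪] [IsDomain 𝒪] [IsDiscreteValuationRing 𝒪] [IsAdicComplete (IsLocalRing.maximalIdeal 𝒪) 𝒪] {ρbar : ResidualGaloisRep (IsLocalRing.ResidueField 𝒪)} {𝒟 : ∀ ⦃A : Type⦄ [CommRing A] [IsLocalRing A] [Algebra 𝒪 A], GaloisRepAdic A → Prop} (D : GaloisRep.DeformationRingData 𝒪 ρbar 𝒟) {N : ℕ} [NeZero N] {S : Set ℕ} {θ : CuspForm.heckeAlgebra N 2 S →+* IsLocalRing.ResidueField 𝒪} {T : Type} [CommRing T] [IsLocalRing T] [IsNoetherianRing T] [IsAdicComplete (IsLocalRing.maximalIdeal T) T] [Algebra 𝒪 T] [IsLocalHom (algebraMap 𝒪 T)] [Module.Finite 𝒪 T] [Module.Free 𝒪 T] (H : CuspForm.HeckeGaloisRepDatum N S 𝒪 θ T) (hS : ∀ q : ℕ, q.Prime → q ∣ N → q ∈ S) (h𝒟 : 𝒟 H.ρ) (hres : H.ρ.residual.IsEquiv (ρbar.baseChangeAlong (IsLocalRing.ResidueField.map (algebraMap 𝒪 T)))) : ∃ φ : D.R →ₐ[𝒪] T, Function.Surjective φ ∧ ∃ hφ : IsLocalHom (φ : D.R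 →+* T), (D.ρ.baseChangeAlong (φ : D.R →+* T) hφ).IsEquiv H.ρ := by
  obtain ⟨φ, ⟨hφ, heq⟩, -⟩ := D.universal T H.residue_surjective H.ρ h𝒟 hres
  refine ⟨φ, ?_, hφ, heq⟩
  obtain ⟨e⟩ := heq
  -- the Hecke operators `T_ℓ` lie in the image: they are traces of Frobenius elements
  have hT : ∀ (ℓ : ℕ) (hℓ : ℓ.Prime) (hℓN : ¬ ℓ ∣ N) (hℓS : ℓ ∉ S),
      H.π (CuspForm.heckeAlgebra.T hℓ hℓN hℓS) ∈ φ.range := by
    intro ℓ hℓ hℓN hℓS
    obtain ⟨A, hA⟩ := Fermat.Agent.Gal.exists_liesOverPrime (L := AlgebraicClosure ℚ) hℓ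
    obtain ⟨σ, hσ⟩ := Fermat.Agent.Gal.exists_isFrobeniusAt hℓ hA
    refine ⟨D.ρ.trace σ, ?_⟩
    have htr : H.ρ.trace σ = H.π (CuspForm.heckeAlgebra.T hℓ hℓN hℓS) := by
      have hc := H.charpoly_frob ℓ hℓ hℓN hℓS A hA σ hσ
      rw [GaloisRepAdic.trace, LinearMap.trace_eq_matrix_trace T
          (Module.finBasisOfFinrankEq T H.ρ.V H.ρ.finrank_eq),
        Matrix.trace_eq_neg_charpoly_coeff, LinearMap.charpoly_toMatrix, hc]
      simp
    let ρ' := D.ρ.baseChangeAlong (φ : D.R →+* T) hφ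
    have hconj : e.toLinearEquiv.conj (ρ'.ρ σ) = H.ρ.ρ σ := by
      refine LinearMap.ext fun x => ?_
      obtain ⟨y, rfl⟩ := e.toLinearEquiv.surjective x
      rw [LinearEquiv.conj_apply_apply, LinearEquiv.symm_apply_apply]
      exact e.map_apply σ y
    have hbc : LinearMap.trace T ρ'.V (ρ'.ρ σ) = φ (D.ρ.trace σ) :=
      let : Algebra D.R T := (φ : D.R →+* T).toAlgebra
      LinearMap.trace_baseChange (D.ρ.ρ σ) T
    have htr' : H.ρ.trace σ = φ (D.ρ.trace σ) := by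
      rw [← hbc, GaloisRepAdic.trace, ← hconj, LinearMap.trace_conj']
    exact htr'.symm.trans htr
  -- hence the whole Hecke algebra does, as no `U_q` is among the generators
  have hπ : ∀ t : CuspForm.heckeAlgebra N 2 S, H.π t ∈ φ.range := by
    rintro ⟨x, hx⟩
    induction hx using Algebra.adjoin_induction with
    | mem x hx =>
      rcases hx with ⟨ℓ, hℓ, hℓN, hℓS, rfl⟩ | ⟨q, hqN, hq, hqS, rfl⟩
      · exact hT ℓ hℓ hℓN hℓS
      · exact absurd (hS q hq hqN) hqS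
    | algebraMap r =>
      have h : H.π (algebraMap ℤ (CuspForm.heckeAlgebra N 2 S) r) ∈ φ.range := by
        simp
      exact h
    | add x y hx hy ihx ihy =>
      have h : H.π (⟨x, hx⟩ + ⟨y, hy⟩) ∈ φ.range := by
        rw [map_add]; exact add_mem ihx ihy
      exact h
    | mul x y hx hy ihx ihy =>
      have h : H.π (⟨x, hx⟩ * ⟨y, hy⟩) ∈ φ.range := by
        rw [map_mul]; exact mul_mem ihx ihy
      exact h
  rw [← AlgHom.range_eq_top, eq_top_iff, ← H.adjoin_range_π]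
  refine Algebra.adjoin_le ?_
  rintro _ ⟨t, rfl⟩
  exact hπ t

end Fermat.Agent.S54
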