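/-
S55 (milestone row 49): `result` proves the frozen statement
`groupCohomology.exists_sha1_dualTwist_sha2_pairing_nondegenerate_of_ne_two`.

Row: Poitou–Tate duality: for an odd prime p, a finite set S of primes containing p, and a
finite-dimensional 𝔽_p-representation M of G_ℚ with open stabilisers, unramified outside S, there
is a perfect pairing between Ш¹_S of the Tate-twisted dual of M and Ш²_S of M.
-/
import Fermat.Statements.S55
import Fermat.Agent.Duality.Bridge
import Fermat.Agent.Duality.Base.Assembly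

set_option autoImplicit false
open CategoryTheory Module groupCohomology ExtCitation
open groupCohomology

namespace Fermat.Agent.S55

theorem result
    {p : ℕ} [Fact p.Prime] (hp2 : p ≠ 2) (S : Finset Nat.Primes) (hpS : pPrime p ∈ S)
    (M : Rep (ZMod p) (AlgebraicClosure ℚ ≃ₐ[ℚ] AlgebraicClosure ℚ))
    [FiniteDimensional (ZMod p) M]
    (hsm : ∀ m : M, ∃ F : IntermediateField ℚ (AlgebraicClosure ℚ), FiniteDimensional ℚ F ∧
      ∀ s ∈ F.fixingSubgroup, M.ρ s m = m)
    (hMur : ∀ q : Nat.Primes, q ∉ S → ∀ A : ValuationSubring (AlgebraicClosure ℚ),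
      A.LiesOverPrime (q : ℕ) → ∀ g ∈ A.inertiaSubgroupIn ℚ, M.ρ g = 1) :
    ∃ B : sha₁ S (M.dualTwist (cycloChar p)) →ₗ[ZMod p] sha₂ S M →ₗ[ZMod p] ZMod p,
      (∀ y, (∀ x, B y x = 0) → y = 0) ∧ (∀ x, (∀ y, B y x = 0) → x = 0) := by
  have : Nonempty ↥S := ⟨⟨_, hpS⟩⟩
  obtain ⟨I⟩ := Fermat.Agent.Duality.nonempty_globalInputs hp2 S hpS
  exact Fermat.Agent.Duality.exists_pairing_of_inputs hp2 M I
    (Fermat.Agent.Duality.RepMod.isSmooth_galLevelsS hsm hMur)

end Fermat.Agent.S55
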