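/-
S56 (milestone row 50): `result` proves the frozen statement
`ResidualGaloisRep.exists_taylorWilesPrimes_mvPowerSeries_surjective_strictOrdinary`.

Row: Taylor–Wiles primes: for an odd prime p and an absolutely irreducible residual representation
ρ̄ with cyclotomic determinant, eigenvalues in the residue field and irreducible restriction to
every index-2 subgroup, there is r such that for every n there are r distinct primes q ≡ 1 mod
p^{n+1} outside S with distinct ρ̄-Frobenius eigenvalues for which the deformation ring with the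
enlarged ramification set is a quotient of a power-series ring in r variables — both for the
strict-ordinary and for the flat condition at p.
-/
import Fermat.Statements.S56
import Fermat.Agent.TWGen.Minimal
import Fermat.Agent.SelmerTW.Main

set_option autoImplicit false
open Polynomial IsLocalRing
open ResidualGaloisRep

namespace Fermat.Agent.S56

theorem result
    {𝒪 : Type} [CommRing 𝒪] [IsDomain 𝒪] [IsDiscreteValuationRing 𝒪]
    [IsAdicComplete (maximalIdeal 𝒪) 𝒪] [Finite (ResidueField 𝒪)]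
    (p : ℕ) [Fact p.Prime] (hp2 : p ≠ 2) (hp𝒪 : (p : 𝒪) ∈ maximalIdeal 𝒪)
    (ρbar : ResidualGaloisRep (ResidueField 𝒪))
    (habs : ρbar.IsAbsolutelyIrreducible)
    (hdet : (GaloisRepAdic.ofResidualGaloisRep ρbar).DetIsCyclotomic p)
    (hsplit : ∀ σ : AlgebraicClosure ℚ ≃ₐ[ℚ] AlgebraicClosure ℚ,
      ∃ α β : ResidueField 𝒪, LinearMap.charpoly (ρbar.ρ σ) = (X - C α) * (X - C β))
    (hTW : ∀ (K : Type) [Field K] [Algebra (ResidueField 𝒪) K]
      (G : Subgroup (AlgebraicClosure ℚ ≃ₐ[ℚ] AlgebraicClosure ℚ)), G.index = 2 →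
      ∀ V : Submodule K (ρbar.baseChange K).V,
        (∀ σ ∈ G, ∀ x ∈ V, (ρbar.baseChange K).ρ σ x ∈ V) → V = ⊥ ∨ V = ⊤)
    (S Smin : Finset ℕ) (hpSmin : p ∈ Smin) (hSmin : Smin ⊆ S) (hS : ∀ q ∈ S, q.Prime)
    (hmin : ∀ q : ℕ, q.Prime → q ≠ p → (q ∈ Smin ↔ ¬ ρbar.IsUnramifiedAt q)) :
    (∃ r : ℕ, ∀ n : ℕ, ∃ qv : Fin r → ℕ, Function.Injective qv ∧
      (∀ i, (qv i).Prime ∧ qv i ∉ S ∧ p ^ (n + 1) ∣ qv i - 1) ∧
      (∀ i, ∀ P : ValuationSubring (AlgebraicClosure ℚ), P.LiesOverPrime (qv i) →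
        ∀ φ : AlgebraicClosure ℚ ≃ₐ[ℚ] AlgebraicClosure ℚ, P.IsFrobeniusAt φ (qv i) →
          ∃ α β : ResidueField 𝒪, α ≠ β ∧ LinearMap.charpoly (ρbar.ρ φ) = (X - C α) * (X - C β)) ∧
      ∀ DQ : GaloisRep.DeformationRingData 𝒪 ρbar (fun _A _ _ _ ρ =>
          GaloisRep.strictOrdinaryCondition 𝒪 p (Smin ∪ Finset.univ.image qv) ρ ∧
            ∀ q ∈ Smin, q.Prime → q ≠ p → ρ.IsUnipotentOnInertiaAt q),
        ∃ γ : MvPowerSeries (Fin r) 𝒪 →ₐ[𝒪] DQ.R, Function.Surjective γ) ∧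
    (∃ r : ℕ, ∀ n : ℕ, ∃ qv : Fin r → ℕ, Function.Injective qv ∧
      (∀ i, (qv i).Prime ∧ qv i ∉ S ∧ p ^ (n + 1) ∣ qv i - 1) ∧
      (∀ i, ∀ P : ValuationSubring (AlgebraicClosure ℚ), P.LiesOverPrime (qv i) →
        ∀ φ : AlgebraicClosure ℚ ≃ₐ[ℚ] AlgebraicClosure ℚ, P.IsFrobeniusAt φ (qv i) →
          ∃ α β : ResidueField 𝒪, α ≠ β ∧ LinearMap.charpoly (ρbar.ρ φ) = (X - C α) * (X - C β)) ∧
      ∀ DQ : GaloisRep.DeformationRingData 𝒪 ρbar (fun _A _ _ _ ρ =>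
          GaloisRep.flatCondition 𝒪 p (Smin ∪ Finset.univ.image qv) ρ ∧
            ∀ q ∈ Smin, q.Prime → q ≠ p → ρ.IsUnipotentOnInertiaAt q),
        ∃ γ : MvPowerSeries (Fin r) 𝒪 →ₐ[𝒪] DQ.R, Function.Surjective γ) := by
  classical
  have := Fermat.Agent.LocalModelP.charP_residue (Fact.out : p.Prime) hp𝒪
  obtain ⟨M0, hM0⟩ := Fermat.Agent.Deformation.exists_isResMatrixRep ρbar
  let ρ := M0.toHomUnits
  have hρ : ∀ σ, (ρ σ).val = M0 σ := fun σ => rfl
  have hbig := Fermat.Agent.TWGen.bigImage_of_residual hp2 hM0 hdet hsplit hTW ρ hρ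
  have hprime : ∀ q ∈ Smin, q.Prime := fun q hq => hS q (hSmin hq)
  have hmin' : ∀ q ∈ Smin, q ≠ p → ¬ ρbar.IsUnramifiedAt q := fun q hq hne =>
    (hmin q (hprime q hq) hne).mp hq
  obtain ⟨P, hP⟩ := Fermat.Agent.TWGen.exists_places hM0
  have hunr : ∀ q : ℕ, q.Prime → q ∉ Smin → ∀ A : ValuationSubring (AlgebraicClosure ℚ),
      A.LiesOverPrime q → ∀ σ ∈ A.inertiaSubgroupIn ℚ, ρ σ = 1 := by
    intro q hq hqS A hA σ hσ
    have hne : q ≠ p := fun e => hqS (e ▸ hpSmin)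
    have hu : ρbar.IsUnramifiedAt q := by
      by_contra h
      exact hqS ((hmin q hq hne).mpr h)
    obtain ⟨b, hb⟩ := hM0
    refine Units.ext ?_
    rw [hρ, ← hb, hu A hA σ hσ, LinearMap.toMatrix_one, Units.val_one]
  obtain ⟨r, hr⟩ := Fermat.Agent.SelmerTW.exists_tw_primes_of_image hbig.isTWImage Smin hprime
    hpSmin hunr P fun v hv => (hP v (hprime v hv)).1
  have hlevel : ∀ n : ℕ, ∃ qv : Fin r → ℕ, Function.Injective qv ∧
      (∀ i, (qv i).Prime ∧ qv i ∉ S ∧ p ^ (n + 1) ∣ qv i - 1) ∧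
      (∀ i, ∀ P : ValuationSubring (AlgebraicClosure ℚ), P.LiesOverPrime (qv i) →
        ∀ φ : AlgebraicClosure ℚ ≃ₐ[ℚ] AlgebraicClosure ℚ, P.IsFrobeniusAt φ (qv i) →
          ∃ α β : ResidueField 𝒪, α ≠ β ∧
            LinearMap.charpoly (ρbar.ρ φ) = (X - C α) * (X - C β)) ∧
      ∀ (m : ℕ) (x : Fin m → _ × _), (∀ i, Fermat.Agent.Root.Patched.IsFramedKernel ρ Smin
        (Finset.univ.image qv) P (x i)) → LinearIndependent (ResidueField 𝒪) x → m ≤ r + 2 := by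
    intro n
    obtain ⟨Q, hcard, -, hQ, hb⟩ := hr (n + S.sup id)
    refine ⟨Q.orderEmbOfFin hcard, (Q.orderEmbOfFin hcard).injective, fun i => ?_,
      fun i A hA φ hφ => ?_, ?_⟩
    · obtain ⟨hq, hdvd, -⟩ := hQ _ (Q.orderEmbOfFin_mem hcard i)
      refine ⟨hq, fun hmem => ?_, (pow_dvd_pow p (by omega)).trans hdvd⟩
      have h1 : Q.orderEmbOfFin hcard i ≤ S.sup id := Finset.le_sup (f := id) hmem
      have h2 : p ^ (n + S.sup id + 1) ≤ Q.orderEmbOfFin hcard i - 1 :=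
        Nat.le_of_dvd (by have := hq.two_le; omega) hdvd
      have h3 := Nat.lt_pow_self (n := n + S.sup id + 1) (Fact.out : p.Prime).one_lt
      omega
    · obtain ⟨-, -, hF⟩ := hQ _ (Q.orderEmbOfFin_mem hcard i)
      obtain ⟨α, β, hαβ⟩ := hsplit φ
      obtain ⟨ht, hd⟩ := Fermat.Agent.TWGen.charpoly_split
        (Fermat.Agent.TWGen.exists_charpoly_split hM0 hαβ)
      refine ⟨α, β, fun e => hF A hA φ hφ ?_, hαβ⟩
      rw [hρ, ht, hd, e]
      ring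
    · rw [Finset.image_orderEmbOfFin_univ]
      exact fun m x hx => hb m x fun i =>
        ⟨(hx i).trace_zero, (hx i).frame_trace_zero, (hx i).frame_support, (hx i).cocycle,
          (hx i).locConst, (hx i).unramified, (hx i).local_zero⟩
  refine ⟨⟨r, fun n => ?_⟩, ⟨r, fun n => ?_⟩⟩
  · obtain ⟨qv, hinj, hq, hF, hb⟩ := hlevel n
    exact ⟨qv, hinj, hq, hF, fun DQ => Fermat.Agent.TWGen.exists_surjective_strictOrdinary hp2 hp𝒪
      hM0 ρ hρ hbig Smin hpSmin hprime hmin' P hP _ DQ r hb⟩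
  · obtain ⟨qv, hinj, hq, hF, hb⟩ := hlevel n
    exact ⟨qv, hinj, hq, hF, fun DQ => Fermat.Agent.TWGen.exists_surjective_flat hp2 hp𝒪
      hM0 ρ hρ hbig Smin hpSmin hprime hmin' P hP _ DQ r hb⟩

end Fermat.Agent.S56
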