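/-
S57 (milestone row 51): `result` proves the frozen statement
`Algebra.PatchingLevel.free_and_ker_eq_span`.

Row: Patching, descent step: a patching level with trivial relation ideal for a nontrivial
R-module M makes M free and faithful over R and identifies the kernel of the structure map
O⟦X₁,…,X_r⟧ → R with the ideal generated by the r given elements.
-/
import Fermat.Statements.S57
import Fermat.Agent.CommAlg.RegularFree
import Fermat.Agent.CommAlg.PowerSeriesRegular

set_option autoImplicit false
open Algebra Algebra.PatchingLevel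

namespace Fermat.Agent.S57

theorem result
    {𝒪 : Type} [CommRing 𝒪] [IsDomain 𝒪] [IsDiscreteValuationRing 𝒪]
    {r : ℕ} {R : Type} [CommRing R] [Algebra 𝒪 R]
    {M : Type} [AddCommGroup M] [Module R M] [Nontrivial M]
    (L : Algebra.PatchingLevel 𝒪 r R M ⊥) :
    Module.Free R M ∧ Module.annihilator R M = ⊥ ∧
      RingHom.ker L.ψ = Ideal.span (Set.range fun i : Fin r => L.φ (MvPowerSeries.X i)) := by
  classical
  obtain ⟨ϖ, hϖ⟩ := IsDiscreteValuationRing.exists_irreducible 𝒪
  have hm : IsLocalRing.maximalIdeal 𝒪 = Ideal.span {ϖ} := hϖ.maximalIdeal_eq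
  let A := MvPowerSeries (Fin r) 𝒪
  set P : List A := Fermat.Agent.CommAlg.psParams r ϖ with hP
  set rs : List A := P.map L.φ with hrs
  have hPreg := Fermat.Agent.CommAlg.isWeaklyRegular_psParams r (S := 𝒪) hϖ.ne_zero
  have hPm := Fermat.Agent.CommAlg.ofList_psParams_eq_maximalIdeal r hm
  -- coordinates on `L.N` with respect to the basis `L.b`
  let g : (Fin L.d → A) →+ L.N :=
    { toFun := fun c => ∑ i, L.φ (c i) • L.b i
      map_zero' := by simp
      map_add' := fun c c' => by simp [add_smul, Finset.sum_add_distrib] }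
  have hg_inj : Function.Injective g := by
    refine (injective_iff_map_eq_zero g).mpr fun c hc => funext fun i => ?_
    simpa using ((L.b_rel c).mp hc) i
  have hg_surj : Function.Surjective g := fun x => (L.b_span x).imp fun c hc => hc.symm
  let e : L.N ≃+ (Fin L.d → A) := (AddEquiv.ofBijective g ⟨hg_inj, hg_surj⟩).symm
  have he : ∀ (a : A) (x : L.N), e (L.φ a • x) = a • e x := by
    intro a x
    obtain ⟨c, rfl⟩ := hg_surj x
    have h1 : L.φ a • g c = g (a • c) := by
      simp [g, Finset.smul_sum, mul_smul]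
    have h2 : ∀ c, e (g c) = c := fun c =>
      (AddEquiv.ofBijective g ⟨hg_inj, hg_surj⟩).symm_apply_apply c
    rw [h1, h2, h2]
  -- the image of the parameters is weakly regular on `L.N`
  have hNreg : RingTheory.Sequence.IsWeaklyRegular L.N rs := by
    have hpi : RingTheory.Sequence.IsWeaklyRegular (Fin L.d → A) P :=
      (LinearEquiv.isWeaklyRegular_congr (TensorProduct.rid A (Fin L.d → A)) P).mp
        hPreg.isWeaklyRegular_lTensor
    exact (AddEquiv.isWeaklyRegular_congr (e := e) (List.forall₂_map_left_iff.mpr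
      (List.forall₂_same.mpr fun a _ x => he a x))).mpr hpi
  have hNfin : Module.Finite A L.N := by
    refine ⟨⟨Finset.univ.image L.b, eq_top_iff.mpr fun x _ => ?_⟩⟩
    obtain ⟨c, rfl⟩ := L.b_span x
    exact sum_mem fun i _ => Submodule.smul_mem _ _ (Submodule.subset_span (by simp))
  set I : Ideal A := Ideal.span (Set.range fun i : Fin r => L.φ (MvPowerSeries.X i)) with hI
  have hC : ∀ c : 𝒪, L.φ (MvPowerSeries.C c) = MvPowerSeries.C c := fun c => L.φ.commutes c
  have hrsI : Ideal.ofList rs = I ⊔ Ideal.span {MvPowerSeries.C ϖ} := by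
    have : Ideal.ofList rs = (Ideal.ofList P).map L.φ.toRingHom := by
      rw [Ideal.map_ofList]; rfl
    rw [this, hP, Fermat.Agent.CommAlg.ofList_psParams, Ideal.map_sup, Ideal.map_span,
      Ideal.map_span, ← Set.range_comp, Set.image_singleton, hI]
    simp [hC, Function.comp_def, A]
  have hπI : ∀ x ∈ I, ∀ y : L.N, L.π (x • y) = 0 := fun x hx y =>
    (L.ker_π _).mpr (Submodule.smul_mem_smul hx Submodule.mem_top)
  -- the parameters lie in the maximal ideal
  have hmem : ∀ x ∈ rs, x ∈ IsLocalRing.maximalIdeal A := by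
    have hle : Ideal.ofList rs ≤ IsLocalRing.maximalIdeal A := by
      rw [hrsI]
      refine sup_le (Ideal.span_le.mpr ?_) ((Ideal.span_singleton_le_iff_mem _).mpr ?_)
      · rintro _ ⟨i, rfl⟩
        by_contra hu
        obtain ⟨u, hu⟩ := IsLocalRing.notMem_maximalIdeal.mp hu
        obtain ⟨m, hm0⟩ := exists_ne (0 : M)
        obtain ⟨x, rfl⟩ := L.π_surjective m
        refine hm0 ?_
        have := hπI _ (Ideal.subset_span ⟨i, rfl⟩) ((↑u⁻¹ : A) • x)
        simpa [← mul_smul, ← hu] using this
      · rw [← hPm, Fermat.Agent.CommAlg.ofList_psParams]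
        exact Ideal.mem_sup_right (Ideal.subset_span rfl)
    exact fun x hx => hle (Ideal.subset_span hx)
  -- the quotient has finite length
  have hfl : IsFiniteLength A (L.N ⧸ Ideal.ofList rs • (⊤ : Submodule A L.N)) := by
    set Q := L.N ⧸ Ideal.ofList rs • (⊤ : Submodule A L.N)
    let : Module 𝒪 Q := Module.compHom Q (algebraMap 𝒪 A)
    have : IsScalarTower 𝒪 A Q := IsScalarTower.of_algebraMap_smul fun _ _ => rfl
    have hkill : ∀ a ∈ Ideal.ofList rs, ∀ q : Q, a • q = 0 := by
      intro a ha q
      induction q using Submodule.Quotient.induction_on with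
      | H x =>
        rw [← Submodule.Quotient.mk_smul, Submodule.Quotient.mk_eq_zero]
        exact Submodule.smul_mem_smul ha Submodule.mem_top
    have hker : ∀ i : Fin L.d, IsLocalRing.maximalIdeal 𝒪 ≤ LinearMap.ker
        (LinearMap.toSpanSingleton 𝒪 Q (Submodule.Quotient.mk (L.b i))) := by
      intro i c hc
      obtain ⟨c', rfl⟩ := Ideal.mem_span_singleton'.mp (hm ▸ hc)
      rw [LinearMap.mem_ker, LinearMap.toSpanSingleton_apply, mul_smul]
      have : ϖ • (Submodule.Quotient.mk (L.b i) : Q) = 0 :=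
        hkill _ (hrsI ▸ Ideal.mem_sup_right (Ideal.subset_span rfl)) _
      rw [this, smul_zero]
    let h : (Fin L.d → 𝒪 ⧸ IsLocalRing.maximalIdeal 𝒪) →ₗ[𝒪] Q :=
      ∑ i, (Submodule.liftQ _ _ (hker i)).comp (LinearMap.proj i)
    have hsurj : Function.Surjective h := by
      intro q
      induction q using Submodule.Quotient.induction_on with
      | H x =>
        obtain ⟨c, rfl⟩ := L.b_span x
        refine ⟨fun i => Submodule.Quotient.mk (MvPowerSeries.constantCoeff (c i)), ?_⟩
        simp only [h, LinearMap.sum_apply, LinearMap.comp_apply, LinearMap.proj_apply,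
          Submodule.liftQ_apply, LinearMap.toSpanSingleton_apply]
        rw [← Submodule.mkQ_apply, map_sum]
        refine Finset.sum_congr rfl fun i _ => ?_
        rw [map_smul, Submodule.mkQ_apply]
        have hX : Ideal.span (Set.range (MvPowerSeries.X : Fin r → A)) ≤ I.comap L.φ :=
          Ideal.span_le.mpr (by rintro _ ⟨j, rfl⟩; exact Ideal.subset_span ⟨j, rfl⟩)
        have hd0 : L.φ (c i - MvPowerSeries.C (MvPowerSeries.constantCoeff (c i))) ∈ I :=
          hX (Fermat.Agent.CommAlg.sub_C_constantCoeff_mem_span_X (c i))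
        have hd := hkill _ (hrsI ▸ Ideal.mem_sup_left hd0) (Submodule.Quotient.mk (L.b i))
        rw [map_sub, hC, sub_smul, sub_eq_zero] at hd
        exact hd.symm
    have : IsSimpleModule 𝒪 (𝒪 ⧸ IsLocalRing.maximalIdeal 𝒪) :=
      isSimpleModule_iff_quot_maximal.mpr ⟨_, inferInstance, ⟨LinearEquiv.refl _ _⟩⟩
    have hart : IsArtinian 𝒪 Q := isArtinian_of_surjective _ h hsurj
    exact isFiniteLength_iff_isNoetherian_isArtinian.mpr
      ⟨inferInstance, isArtinian_of_tower 𝒪 hart⟩
  have hfree : Module.Free A L.N :=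
    Fermat.Agent.CommAlg.free_of_isWeaklyRegular hPreg hPm L.N hNreg hmem
      (by simp [hrs, hP]) hfl
  -- consequences of freeness
  let bb := Module.Free.chooseBasis A L.N
  have hcoord : ∀ (i : Module.Free.ChooseBasisIndex A L.N) (x : L.N),
      x ∈ I • (⊤ : Submodule A L.N) → bb.repr x i ∈ I := by
    intro i x hx
    refine Submodule.smul_induction_on hx (fun a ha y _ => ?_) (fun y z hy hz => ?_)
    · simp only [map_smul, Finsupp.coe_smul, Pi.smul_apply, smul_eq_mul]
      exact Ideal.mul_mem_right _ _ ha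
    · simp only [map_add, Finsupp.coe_add, Pi.add_apply]
      exact add_mem hy hz
  have hNnt : Nontrivial L.N := by
    obtain ⟨m, hm0⟩ := exists_ne (0 : M)
    obtain ⟨x, rfl⟩ := L.π_surjective m
    exact ⟨⟨x, 0, fun h => hm0 (by simp [h])⟩⟩
  obtain ⟨i0⟩ : Nonempty (Module.Free.ChooseBasisIndex A L.N) := bb.index_nonempty
  have hψI : I ≤ RingHom.ker L.ψ :=
    Ideal.span_le.mpr (by rintro _ ⟨i, rfl⟩; exact L.ψ_φ_X i)
  let bM : Module.Free.ChooseBasisIndex A L.N → M := fun i => L.π (bb i)
  have hli : LinearIndependent R bM := by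
    rw [Fintype.linearIndependent_iff]
    intro c hc i
    choose f hf using fun j => L.ψ_surjective (c j)
    have h0 : L.π (∑ j, f j • bb j) = 0 := by
      simpa [map_sum, L.π_smul, hf, bM] using hc
    have hi := hcoord i _ ((L.ker_π _).mp h0)
    rw [bb.repr_sum_self] at hi
    rw [← hf i, RingHom.mem_ker.mp (hψI hi)]
  have hsp : ⊤ ≤ Submodule.span R (Set.range bM) := by
    intro m _
    obtain ⟨x, rfl⟩ := L.π_surjective m
    rw [← bb.sum_repr x, map_sum]
    refine sum_mem fun j _ => ?_
    rw [L.π_smul]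
    exact Submodule.smul_mem _ _ (Submodule.subset_span ⟨j, rfl⟩)
  let BM := Module.Basis.mk hli hsp
  refine ⟨Module.Free.of_basis BM, ?_, ?_⟩
  · refine eq_bot_iff.mpr fun a ha => ?_
    rw [Module.mem_annihilator] at ha
    have := congrArg (fun m => BM.repr m i0) (ha (BM i0))
    simpa using this
  · refine le_antisymm (fun a ha => ?_) hψI
    have h0 : L.π (a • bb i0) = 0 := by
      rw [L.π_smul, RingHom.mem_ker.mp ha, zero_smul]
    simpa using hcoord i0 _ ((L.ker_π _).mp h0)

end Fermat.Agent.S57
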