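/-
S58 (milestone row 52): `result` proves the frozen statement
`WeierstrassCurve.isModularModelOfLevel_conductorLevel_of_not_cube_dvd_of_modRepIsIrreducible_of_not_sq_dvd`.

Row: Conductor–level matching: a semistable integral Weierstrass curve that is modular of some
cube-free level N divisible by all its bad primes, with irreducible mod-p representation for an
odd prime p with p² not dividing N, is modular of its conductor level.
-/
import Fermat.Statements.S58
import Fermat.Agent.Conductor.ConductorLevel

set_option autoImplicit false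
open WeierstrassCurve

namespace Fermat.Agent.S58

theorem result
    (W : WeierstrassCurve ℤ) (hss : W.IsSemistableModel) (N : ℕ)
    (p : ℕ) [Fact p.Prime] (hp2 : p ≠ 2) (hirr : W.ModRepIsIrreducible p)
    (hp2N : ¬ p ^ 2 ∣ N)
    (hN : W.IsModularModelOfLevel N) (hbad : ∀ ℓ : ℕ, ℓ.Prime → (ℓ : ℤ) ∣ W.Δ → ℓ ∣ N)
    (hN3 : ∀ q : ℕ, q.Prime → ¬ q ^ 3 ∣ N) :
    W.IsModularModelOfLevel W.conductorLevel := by
  exact Fermat.Agent.Conductor.isModularModelOfLevel_conductorLevel W hss N p hp2 hirr hp2N hN
    hbad hN3

end Fermat.Agent.S58
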