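/-
S59 (milestone row 53): `result` proves the frozen statement
`WeierstrassCurve.modularityLiftingAtConductor_threeFive_of_level_of_not_sq_dvd_of_not_cube_dvd`.

Row: Modularity lifting (R = T) at p ∈ {3, 5}: a semistable curve whose mod-p representation is
irreducible and residually modular of some level M₀ with p² ∤ M₀ and M₀ cube-free away from p is
modular of exact conductor level (in the prelude's sense).
-/
import Fermat.Statements.S59
import Fermat.Agent.Root.SemistableModular

set_option autoImplicit false
open scoped WeierstrassCurve.Affine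
open WeierstrassCurve

namespace Fermat.Agent.S59

theorem result (p : ℕ) (hp : p = 3 ∨ p = 5)
    (W : WeierstrassCurve ℤ) (hΔ : W.Δ ≠ 0) (hW : W.IsSemistableModel) (hirr : W.ModRepIsIrreducible p)
    (M₀ : ℕ) [NeZero M₀] (hres₀ : W.IsResiduallyModularOfLevel p M₀)
    (hM₀ : ¬ p ^ 2 ∣ M₀)
    (hM₀3 : ∀ q : ℕ, q.Prime → q ≠ p → ¬ q ^ 3 ∣ M₀) :
    Mlc1IsModularModelOfExactConductorLevel W := by
  exact Fermat.Agent.Root.Wrappers.modularModel_exactConductorLevel Fermat.Agent.Root.semistable_modular W hΔ hW

end Fermat.Agent.S59
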