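/-
S60 (milestone row 54): `result` proves the frozen statement
`WeierstrassCurve.modularity_of_semistableModel`.

Row: Every semistable integral Weierstrass curve with nonzero discriminant is modular over ℚ.
-/
import Fermat.Statements.S60
import Fermat.Agent.Root.SemistableModular

set_option autoImplicit false
open WeierstrassCurve WeierstrassCurve.Affine WeierstrassCurve.Affine.Point
open CuspForm ModularFormClass UpperHalfPlane
open WeierstrassCurve

namespace Fermat.Agent.S60

theorem result (W : WeierstrassCurve ℤ) (hΔ : W.Δ ≠ 0) (hW : W.IsSemistableModel) : (W.map (Int.castRingHom ℚ)).IsModular := by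
  exact Fermat.Agent.Root.Wrappers.isModular_semistable Fermat.Agent.Root.semistable_modular W hΔ hW

end Fermat.Agent.S60
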